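/-
Riemann's theorem (adelic form) for function fields, over the prelude's definitions
(`AlgebraicCurve.Place`, `Divisor`, `riemannRochSpace`, `repartitions`, `H1`, `genusFF`).

Part 1 (helper58): divisors of degree-one places, induction principles along `D ≤ D'`,
the one-step lemma for the Riemann–Roch spaces `L(D) ⊆ L(D + v)`.
-/
import Mathlib
import Fermat.Agent.H23.PlaceBasic

set_option autoImplicit false

noncomputable section

open AlgebraicCurve

namespace Fermat.Agent.H58

variable {K F : Type*} [Field K] [Field F] [Algebra K F]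

/-! ### Degree of divisors when all places have degree one -/

theorem rr_degree_eq_sum (D : Divisor K F) :
    Divisor.degree D = D.sum fun v n => n * (v.deg : ℤ) := by
  simp [Divisor.degree, Finsupp.liftAddHom_apply]

theorem rr_degree_eq_sum_of_deg_one (hdeg : ∀ v : Place K F, v.deg = 1) (D : Divisor K F) :
    Divisor.degree D = D.sum fun _ n => n := by
  rw [rr_degree_eq_sum]
  refine Finsupp.sum_congr fun v _ => ?_
  rw [hdeg v]; simp

theorem rr_degree_nonneg (D : Divisor K F) (hD : 0 ≤ D) : 0 ≤ Divisor.degree D := by
  rw [rr_degree_eq_sum]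
  refine Finset.sum_nonneg fun v _ => ?_
  have h := Finsupp.le_def.mp hD v
  exact mul_nonneg (by simpa using h) (Int.natCast_nonneg _)

theorem rr_eq_zero_of_degree_eq_zero (hdeg : ∀ v : Place K F, v.deg = 1) (D : Divisor K F)
    (hD : 0 ≤ D) (h0 : Divisor.degree D = 0) : D = 0 := by
  rw [rr_degree_eq_sum_of_deg_one hdeg, Finsupp.sum] at h0
  have hnn : ∀ v ∈ D.support, 0 ≤ D v := fun v _ => by
    simpa using Finsupp.le_def.mp hD v
  have h1 := (Finset.sum_eq_zero_iff_of_nonneg hnn).mp h0
  ext v
  by_cases hv : v ∈ D.support
  · simpa using h1 v hv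
  · simpa using Finsupp.notMem_support_iff.mp hv

theorem rr_exists_pos_of_ne_zero (D : Divisor K F) (hD : 0 ≤ D) (h0 : D ≠ 0) :
    ∃ v : Place K F, 0 < D v := by
  by_contra hcon
  apply h0
  ext v
  have h1 : D v ≤ 0 := not_lt.mp fun h => hcon ⟨v, h⟩
  have h2 : 0 ≤ D v := by simpa using Finsupp.le_def.mp hD v
  simpa using le_antisymm h1 h2

theorem rr_degree_add_single (hdeg : ∀ v : Place K F, v.deg = 1) (D : Divisor K F)
    (v : Place K F) (n : ℤ) :
    Divisor.degree (D + Finsupp.single v n) = Divisor.degree D + n := by
  rw [map_add, Divisor.degree_single, hdeg v]; simp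

/-- Upward induction along `D ≤ D'`, one place at a time. -/
theorem rr_induction_le (hdeg : ∀ v : Place K F, v.deg = 1) {P : Divisor K F → Prop}
    (D : Divisor K F) (h0 : P D)
    (hstep : ∀ (D' : Divisor K F) (v : Place K F), D ≤ D' → P D' → P (D' + Finsupp.single v 1)) :
    ∀ D' : Divisor K F, D ≤ D' → P D' := by
  have key : ∀ (n : ℕ) (D' : Divisor K F), D ≤ D' →
      Divisor.degree (D' - D) = n → P D' := by
    intro n
    induction n with
    | zero =>
      intro D' hle hn
      have hE : 0 ≤ D' - D := sub_nonneg.mpr hle
      have := rr_eq_zero_of_degree_eq_zero hdeg (D' - D) hE (by simpa using hn)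
      have hDD : D' = D := sub_eq_zero.mp this
      rw [hDD]; exact h0
    | succ n ih =>
      intro D' hle hn
      have hE : 0 ≤ D' - D := sub_nonneg.mpr hle
      have hne : D' - D ≠ 0 := by
        intro h
        rw [h, map_zero] at hn
        have : (0 : ℤ) = ((n + 1 : ℕ) : ℤ) := hn
        omega
      obtain ⟨v, hv⟩ := rr_exists_pos_of_ne_zero (D' - D) hE hne
      have hle' : D ≤ D' - Finsupp.single v 1 := by
        rw [Finsupp.le_def]
        intro w
        have hw := Finsupp.le_def.mp hle w
        by_cases hwv : w = v
        · subst hwv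
          have : 0 < D' w - D w := by simpa using hv
          simp only [Finsupp.coe_sub, Pi.sub_apply, Finsupp.single_eq_same]
          omega
        · simp only [Finsupp.coe_sub, Pi.sub_apply]
          rw [Finsupp.single_eq_of_ne hwv]
          omega
      have hdeg' : Divisor.degree (D' - Finsupp.single v 1 - D) = n := by
        have h1 : D' - Finsupp.single v 1 - D = (D' - D) + Finsupp.single v (-1) := by
          rw [Finsupp.single_neg]; abel
        rw [h1, rr_degree_add_single hdeg, hn]
        push_cast; ring
      have := hstep _ v hle' (ih _ hle' hdeg')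
      simpa using this
  intro D' hle
  have hE : 0 ≤ D' - D := sub_nonneg.mpr hle
  have hnn := rr_degree_nonneg (D' - D) hE
  exact key (Divisor.degree (D' - D)).toNat D' hle (Int.toNat_of_nonneg hnn).symm

/-- Downward induction along `D ≤ D'`, one place at a time. -/
theorem rr_induction_ge (hdeg : ∀ v : Place K F, v.deg = 1) {P : Divisor K F → Prop}
    (D' : Divisor K F) (h0 : P D')
    (hstep : ∀ (D : Divisor K F) (v : Place K F), D + Finsupp.single v 1 ≤ D' →
      P (D + Finsupp.single v 1) → P D) :
    ∀ D : Divisor K F, D ≤ D' → P D := by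
  intro D hle
  have := rr_induction_le hdeg (P := fun X => P (-X)) (-D') (by simpa using h0)
    (fun X v hX hP => by
      have h1 : -(X + Finsupp.single v 1) + Finsupp.single v 1 = -X := by abel
      apply hstep (-(X + Finsupp.single v 1)) v
      · rw [h1]; exact neg_le.mp hX
      · rw [h1]; exact hP)
    (-D) (neg_le_neg hle)
  simpa using this

end Fermat.Agent.H58

end
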