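/-
Riemann's theorem (adelic form), part 2 (helper58): the Riemann–Roch spaces `L(D)`:
monotonicity, the one-step lemma `L(D + v) ⊆ L(D) + K f₀`, vanishing in negative degree,
`L(0) = K`, finite-dimensionality.
-/
import Fermat.Agent.H58.RR.Basic

set_option autoImplicit false
set_option linter.style.haveILetI false

noncomputable section

open AlgebraicCurve

namespace Fermat.Agent.H58

variable {K F : Type*} [Field K] [Field F] [Algebra K F]

theorem rr_space_mono {D D' : Divisor K F} (h : D ≤ D') :
    riemannRochSpace D ≤ riemannRochSpace D' := by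
  intro f hf
  rw [mem_riemannRochSpace_iff] at hf ⊢
  intro v
  rcases hf v with h0 | h1
  · exact Or.inl h0
  · right
    have := Finsupp.le_def.mp h v
    omega

theorem rr_add_single_apply_same (D : Divisor K F) (v : Place K F) (n : ℤ) :
    (D + Finsupp.single v n) v = D v + n := by
  simp

theorem rr_add_single_apply_ne (D : Divisor K F) {v w : Place K F} (n : ℤ) (h : w ≠ v) :
    (D + Finsupp.single v n) w = D w := by
  simp [Finsupp.single_eq_of_ne h]

theorem rr_le_add_single (D : Divisor K F) (v : Place K F) :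
    D ≤ D + Finsupp.single v 1 := by
  rw [Finsupp.le_def]
  intro w
  by_cases h : w = v
  · subst h; rw [rr_add_single_apply_same]; omega
  · rw [rr_add_single_apply_ne D 1 h]

/-- An element of `L(D + v)` which is not in `L(D)` has order exactly `-(D v + 1)` at `v`. -/
theorem rr_ord_eq_of_mem_of_notMem {D : Divisor K F} {v : Place K F} {f : F}
    (hf : f ∈ riemannRochSpace (D + Finsupp.single v 1)) (hf' : f ∉ riemannRochSpace D) :
    f ≠ 0 ∧ v.ord f = -(D v + 1) := by
  have hf0 : f ≠ 0 := fun h => hf' (h ▸ Submodule.zero_mem _)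
  refine ⟨hf0, ?_⟩
  rw [mem_riemannRochSpace_iff] at hf hf'
  simp only [not_forall, not_or, not_le] at hf'
  obtain ⟨w, -, hw⟩ := hf'
  have hwv : w = v := by
    by_contra hne
    have := (hf w).resolve_left hf0
    rw [rr_add_single_apply_ne D 1 hne] at this
    omega
  subst hwv
  have := (hf w).resolve_left hf0
  rw [rr_add_single_apply_same] at this
  omega

/-- Key local lemma: if `f₀` has order exactly `-(D v + 1)` at a place `v` of degree one and
`x` has order `≥ -(D v + 1)` at `v`, then `x - c f₀` has order `≥ - D v` for some constant `c`. -/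
theorem rr_exists_const_sub (v : Place K F) (hdeg : v.deg = 1) (n : ℤ) {f₀ : F} (hf₀ : f₀ ≠ 0)
    (hord : v.ord f₀ = n) {x : F} (hx : x = 0 ∨ n ≤ v.ord x) :
    ∃ c : K, x - c • f₀ = 0 ∨ n + 1 ≤ v.ord (x - c • f₀) := by
  rcases eq_or_ne x 0 with rfl | hx0
  · exact ⟨0, Or.inl (by simp)⟩
  have hx1 : n ≤ v.ord x := hx.resolve_left hx0
  have hg : 0 ≤ v.ord (x * f₀⁻¹) := by
    rw [v.ord_mul hx0 (inv_ne_zero hf₀), v.ord_inv, hord]; omega
  obtain ⟨c, hc⟩ := Fermat.Agent.H23.exists_const_ord_sub_pos v hdeg (Or.inr hg)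
  refine ⟨c, ?_⟩
  have hfact : x - c • f₀ = (x * f₀⁻¹ - algebraMap K F c) * f₀ := by
    rw [Algebra.smul_def]; field_simp
  rcases hc with hc | hc
  · left
    rw [hfact, hc, sub_self, zero_mul]
  · by_cases h0 : x * f₀⁻¹ - algebraMap K F c = 0
    · left; rw [hfact, h0, zero_mul]
    · right
      rw [hfact, v.ord_mul h0 hf₀, hord]; omega

theorem rr_smul_ord (w : Place K F) {c : K} (hc : c ≠ 0) (f : F) :
    w.ord (c • f) = w.ord f := by
  rcases eq_or_ne f 0 with rfl | hf
  · simp
  rw [Algebra.smul_def, w.ord_mul ((map_ne_zero _).mpr hc) hf, Fermat.Agent.H23.ord_algebraMap,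
    zero_add]

/-- ultrametric inequality for `x - c • f`. -/
theorem rr_ord_sub_smul_ge (w : Place K F) (n : ℤ) {x f : F} (c : K)
    (hx : x = 0 ∨ n ≤ w.ord x) (hf : f = 0 ∨ n ≤ w.ord f) :
    x - c • f = 0 ∨ n ≤ w.ord (x - c • f) := by
  by_cases h0 : x - c • f = 0
  · exact Or.inl h0
  right
  rw [sub_eq_add_neg] at h0 ⊢
  refine Fermat.Agent.H23.ord_add_ge w h0 n hx ?_
  rcases eq_or_ne c 0 with rfl | hc
  · left; simp
  rcases hf with hf | hf
  · left; simp [hf]
  · right; rw [Fermat.Agent.H23.ord_neg, rr_smul_ord w hc]; exact hf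

/-- **One-step lemma** for `L`: `L(D + v) ⊆ L(D) + K f₀`. -/
theorem rr_space_onestep (D : Divisor K F) (v : Place K F) (hdeg : v.deg = 1) :
    ∃ f₀ ∈ riemannRochSpace (D + Finsupp.single v 1),
      ∀ f ∈ riemannRochSpace (D + Finsupp.single v 1), ∃ c : K, f - c • f₀ ∈ riemannRochSpace D := by
  by_cases h : riemannRochSpace (D + Finsupp.single v 1) ≤ riemannRochSpace D
  · exact ⟨0, Submodule.zero_mem _, fun f hf => ⟨0, by simpa using h hf⟩⟩
  obtain ⟨f₀, hf₀, hf₀'⟩ := SetLike.not_le_iff_exists.mp h
  refine ⟨f₀, hf₀, fun f hf => ?_⟩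
  obtain ⟨hf₀0, hord⟩ := rr_ord_eq_of_mem_of_notMem hf₀ hf₀'
  have hfv := (mem_riemannRochSpace_iff.mp hf) v
  rw [rr_add_single_apply_same] at hfv
  obtain ⟨c, hc⟩ := rr_exists_const_sub v hdeg (-(D v + 1)) hf₀0 hord
    (x := f) (by rcases hfv with h | h; exact Or.inl h; right; omega)
  refine ⟨c, ?_⟩
  rw [mem_riemannRochSpace_iff]
  intro w
  by_cases hwv : w = v
  · subst hwv
    rcases hc with hc | hc
    · exact Or.inl hc
    · right; omega
  · have h1 := (mem_riemannRochSpace_iff.mp hf) w
    have h2 := (mem_riemannRochSpace_iff.mp hf₀) w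
    rw [rr_add_single_apply_ne D 1 hwv] at h1 h2
    exact rr_ord_sub_smul_ge w _ c h1 h2

theorem rr_space_le_sup_span (D : Divisor K F) (v : Place K F) (hdeg : v.deg = 1) :
    ∃ f₀ : F, riemannRochSpace (D + Finsupp.single v 1) ≤
      riemannRochSpace D ⊔ Submodule.span K {f₀} := by
  obtain ⟨f₀, -, h⟩ := rr_space_onestep D v hdeg
  refine ⟨f₀, fun f hf => ?_⟩
  obtain ⟨c, hc⟩ := h f hf
  have : f = (f - c • f₀) + c • f₀ := by abel
  rw [this]
  exact Submodule.add_mem_sup hc (Submodule.smul_mem _ _ (Submodule.mem_span_singleton_self f₀))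

/-- One step: finiteness and dimension bound. -/
theorem rr_finrank_onestep (D : Divisor K F) (v : Place K F) (hdeg : v.deg = 1)
    [Module.Finite K (riemannRochSpace D)] :
    Module.Finite K (riemannRochSpace (D + Finsupp.single v 1)) ∧
      Module.finrank K (riemannRochSpace D) ≤
        Module.finrank K (riemannRochSpace (D + Finsupp.single v 1)) ∧
      Module.finrank K (riemannRochSpace (D + Finsupp.single v 1)) ≤
        Module.finrank K (riemannRochSpace D) + 1 := by
  obtain ⟨f₀, hf₀⟩ := rr_space_le_sup_span D v hdeg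
  haveI : Module.Finite K (Submodule.span K {f₀}) := Module.Finite.span_singleton K f₀
  haveI hsup : Module.Finite K ↥(riemannRochSpace D ⊔ Submodule.span K {f₀}) :=
    Submodule.finiteDimensional_sup _ _
  haveI : Module.Finite K (riemannRochSpace (D + Finsupp.single v 1)) :=
    Submodule.finiteDimensional_of_le hf₀
  refine ⟨inferInstance, Submodule.finrank_mono (rr_space_mono (rr_le_add_single D v)), ?_⟩
  calc Module.finrank K (riemannRochSpace (D + Finsupp.single v 1))
      ≤ Module.finrank K ↥(riemannRochSpace D ⊔ Submodule.span K {f₀}) :=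
        Submodule.finrank_mono hf₀
    _ ≤ Module.finrank K (riemannRochSpace D) + Module.finrank K (Submodule.span K {f₀}) :=
        Submodule.finrank_add_le_finrank_add_finrank _ _
    _ ≤ Module.finrank K (riemannRochSpace D) + 1 := by
        have : Module.finrank K (Submodule.span K {f₀}) ≤ 1 := by
          rcases eq_or_ne f₀ 0 with rfl | h0
          · rw [Submodule.span_zero_singleton, finrank_bot]; omega
          · rw [finrank_span_singleton h0]
        omega

/-! ### Vanishing in negative degree and `L(0) = K` -/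

theorem rr_degree_nonneg_of_mem [HasPrincipalDivisors K F] {D : Divisor K F} {f : F}
    (hf : f ∈ riemannRochSpace D) (hf0 : f ≠ 0) : 0 ≤ Divisor.degree D := by
  obtain ⟨E, hE, hE0⟩ := HasPrincipalDivisors.exists_divisor (K := K) f hf0
  have h1 : 0 ≤ E + D := by
    rw [Finsupp.le_def]
    intro v
    have := ((mem_riemannRochSpace_iff.mp hf) v).resolve_left hf0
    simp only [Finsupp.coe_zero, Pi.zero_apply, Finsupp.coe_add, Pi.add_apply, hE v]
    omega
  have h2 := rr_degree_nonneg _ h1
  rw [map_add, hE0, zero_add] at h2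
  exact h2

theorem rr_space_eq_bot_of_degree_neg [HasPrincipalDivisors K F] {D : Divisor K F}
    (hD : Divisor.degree D < 0) : riemannRochSpace D = ⊥ := by
  rw [eq_bot_iff]
  intro f hf
  rw [Submodule.mem_bot]
  by_contra hf0
  have := rr_degree_nonneg_of_mem hf hf0
  omega

/-- A nonzero function without poles has no zeros. -/
theorem rr_ord_eq_zero_of_mem_zero [HasPrincipalDivisors K F]
    (hdeg : ∀ v : Place K F, v.deg = 1) {f : F}
    (hf : f ∈ riemannRochSpace (0 : Divisor K F)) (hf0 : f ≠ 0) (v : Place K F) :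
    v.ord f = 0 := by
  obtain ⟨E, hE, hE0⟩ := HasPrincipalDivisors.exists_divisor (K := K) f hf0
  have h1 : 0 ≤ E := by
    rw [Finsupp.le_def]
    intro w
    have := ((mem_riemannRochSpace_iff.mp hf) w).resolve_left hf0
    simp only [Finsupp.coe_zero, Pi.zero_apply, hE w] at this ⊢
    omega
  have h2 := rr_eq_zero_of_degree_eq_zero hdeg E h1 hE0
  rw [← hE v, h2]; rfl

theorem rr_algebraMap_mem_zero (c : K) :
    algebraMap K F c ∈ riemannRochSpace (0 : Divisor K F) := by
  rw [mem_riemannRochSpace_iff]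
  intro v
  right
  rw [Fermat.Agent.H23.ord_algebraMap]; simp

/-- `L(0) = K`. -/
theorem rr_mem_zero_iff [HasPrincipalDivisors K F] (hdeg : ∀ v : Place K F, v.deg = 1)
    (v₀ : Place K F) {f : F} :
    f ∈ riemannRochSpace (0 : Divisor K F) ↔ ∃ c : K, f = algebraMap K F c := by
  constructor
  · intro hf
    rcases eq_or_ne f 0 with rfl | hf0
    · exact ⟨0, by simp⟩
    have h1 : 0 ≤ v₀.ord f := by rw [rr_ord_eq_zero_of_mem_zero hdeg hf hf0 v₀]
    obtain ⟨c, hc⟩ := Fermat.Agent.H23.exists_const_ord_sub_pos v₀ (hdeg v₀) (Or.inr h1)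
    refine ⟨c, ?_⟩
    rcases hc with hc | hc
    · exact hc
    · by_contra hne
      have h2 : f - algebraMap K F c ∈ riemannRochSpace (0 : Divisor K F) :=
        Submodule.sub_mem _ hf (rr_algebraMap_mem_zero c)
      have h3 := rr_ord_eq_zero_of_mem_zero hdeg h2 (sub_ne_zero.mpr hne) v₀
      omega
  · rintro ⟨c, rfl⟩
    exact rr_algebraMap_mem_zero c

theorem rr_space_zero_eq [HasPrincipalDivisors K F] (hdeg : ∀ v : Place K F, v.deg = 1)
    (v₀ : Place K F) :
    riemannRochSpace (0 : Divisor K F) = Submodule.span K {(1 : F)} := by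
  ext f
  rw [rr_mem_zero_iff hdeg v₀, Submodule.mem_span_singleton]
  constructor
  · rintro ⟨c, rfl⟩
    exact ⟨c, by rw [Algebra.smul_def, mul_one]⟩
  · rintro ⟨c, rfl⟩
    exact ⟨c, by rw [Algebra.smul_def, mul_one]⟩

theorem rr_finrank_zero [HasPrincipalDivisors K F] (hdeg : ∀ v : Place K F, v.deg = 1)
    (v₀ : Place K F) :
    Module.finrank K (riemannRochSpace (0 : Divisor K F)) = 1 := by
  rw [rr_space_zero_eq hdeg v₀]
  exact finrank_span_singleton one_ne_zero

/-! ### Finite-dimensionality of `L(D)` -/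

/-- Statement proved by induction: finiteness together with the bound by the degree. -/
theorem rr_finite_and_bound [HasPrincipalDivisors K F] (hdeg : ∀ v : Place K F, v.deg = 1)
    (D₀ : Divisor K F) [Module.Finite K (riemannRochSpace D₀)] (D : Divisor K F) (hD : D₀ ≤ D) :
    Module.Finite K (riemannRochSpace D) ∧
      (Module.finrank K (riemannRochSpace D) : ℤ) - Divisor.degree D ≤
        (Module.finrank K (riemannRochSpace D₀) : ℤ) - Divisor.degree D₀ ∧
      Module.finrank K (riemannRochSpace D₀) ≤ Module.finrank K (riemannRochSpace D) := by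
  refine rr_induction_le hdeg (P := fun D => Module.Finite K (riemannRochSpace D) ∧
      (Module.finrank K (riemannRochSpace D) : ℤ) - Divisor.degree D ≤
        (Module.finrank K (riemannRochSpace D₀) : ℤ) - Divisor.degree D₀ ∧
      Module.finrank K (riemannRochSpace D₀) ≤ Module.finrank K (riemannRochSpace D))
    D₀ ⟨inferInstance, le_rfl, le_rfl⟩ ?_ D hD
  rintro D' v - ⟨hfin, hbound, hmono⟩
  haveI := hfin
  obtain ⟨h1, h2, h3⟩ := rr_finrank_onestep D' v (hdeg v)
  refine ⟨h1, ?_, hmono.trans h2⟩
  rw [rr_degree_add_single hdeg]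
  omega

theorem rr_space_finite [HasPrincipalDivisors K F] (hdeg : ∀ v : Place K F, v.deg = 1)
    (v₀ : Place K F) (D : Divisor K F) : Module.Finite K (riemannRochSpace D) := by
  -- go below `D` to negative degree
  set k : ℤ := Divisor.degree D + 1 with hk
  set D₀ : Divisor K F := D + Finsupp.single v₀ (-(max k 0)) with hD₀
  have hdeg₀ : Divisor.degree D₀ < 0 := by
    rw [hD₀, rr_degree_add_single hdeg]
    have := le_max_left k 0
    omega
  have hbot := rr_space_eq_bot_of_degree_neg hdeg₀
  haveI : Module.Finite K (riemannRochSpace D₀) := by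
    rw [hbot]; infer_instance
  have hle : D₀ ≤ D := by
    rw [Finsupp.le_def]
    intro w
    by_cases hw : w = v₀
    · subst hw
      rw [hD₀, rr_add_single_apply_same]
      have := le_max_right k 0
      omega
    · rw [hD₀, rr_add_single_apply_ne D _ hw]
  exact (rr_finite_and_bound hdeg D₀ D hle).1

/-- Monotonicity with the degree bound, for arbitrary `D ≤ D'`. -/
theorem rr_finrank_le_of_le [HasPrincipalDivisors K F] (hdeg : ∀ v : Place K F, v.deg = 1)
    (v₀ : Place K F) {D D' : Divisor K F} (h : D ≤ D') :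
    Module.finrank K (riemannRochSpace D) ≤ Module.finrank K (riemannRochSpace D') ∧
      (Module.finrank K (riemannRochSpace D') : ℤ) - Divisor.degree D' ≤
        (Module.finrank K (riemannRochSpace D) : ℤ) - Divisor.degree D := by
  haveI := rr_space_finite hdeg v₀ D
  obtain ⟨-, h1, h2⟩ := rr_finite_and_bound hdeg D D' h
  exact ⟨h2, h1⟩

end Fermat.Agent.H58

end
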