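/-
Riemann's theorem (adelic form), part 3 (helper58): repartitions.
* every repartition has finitely many poles and lies in some `A(D)`;
* the one-step lemmas comparing `A(D) + F` and `A(D + v) + F`.
-/
import Fermat.Agent.H58.RR.Space

set_option autoImplicit false
set_option linter.style.haveILetI false

noncomputable section

open AlgebraicCurve

namespace Fermat.Agent.H58

variable {K F : Type*} [Field K] [Field F] [Algebra K F]

/-! ### Finiteness of poles -/

theorem rr_finite_poles_of_ne_zero [HasPrincipalDivisors K F] (f : F) :
    {v : Place K F | ¬ v.adicValuation f ≤ 1}.Finite := by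
  rcases eq_or_ne f 0 with rfl | hf
  · simp
  obtain ⟨E, hE, -⟩ := HasPrincipalDivisors.exists_divisor (K := K) f hf
  refine E.support.finite_toSet.subset fun v hv => ?_
  rw [Set.mem_ofPred_eq, Place.not_adicValuation_le_one_iff] at hv
  rw [Finset.mem_coe, Finsupp.mem_support_iff, hE v]
  omega

theorem rr_repartition_finite_poles' [HasPrincipalDivisors K F] (α : Place K F → F)
    (hα : α ∈ repartitions K F) :
    {v : Place K F | ¬ v.adicValuation (α v) ≤ 1}.Finite := by
  unfold repartitions at hα
  induction hα using Algebra.adjoin_induction with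
  | mem x hx => exact hx
  | algebraMap f => exact rr_finite_poles_of_ne_zero f
  | add x y _ _ hx hy =>
    refine (hx.union hy).subset fun v hv => ?_
    simp only [Set.mem_ofPred_eq, Set.mem_union] at hv ⊢
    by_contra hcon
    simp only [not_or, not_not] at hcon
    exact hv ((Valuation.map_add _ _ _).trans (max_le hcon.1 hcon.2))
  | mul x y _ _ hx hy =>
    refine (hx.union hy).subset fun v hv => ?_
    simp only [Set.mem_ofPred_eq, Set.mem_union] at hv ⊢
    by_contra hcon
    simp only [not_or, not_not] at hcon
    apply hv
    rw [Pi.mul_apply, map_mul]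
    exact mul_le_one' hcon.1 hcon.2

theorem rr_repartition_finite_poles [HasPrincipalDivisors K F] (α : ↥(repartitions K F)) :
    {v : Place K F | v.ord ((α : Place K F → F) v) < 0}.Finite := by
  have h := rr_repartition_finite_poles' (α : Place K F → F) α.2
  refine h.subset fun v hv => ?_
  rw [Set.mem_ofPred_eq, Place.not_adicValuation_le_one_iff]
  exact hv

/-- Every repartition lies in `A(D)` for some `D` above a given divisor. -/
theorem rr_exists_mem_repartitionsOf [HasPrincipalDivisors K F] (α : ↥(repartitions K F))
    (D₁ : Divisor K F) : ∃ D : Divisor K F, D₁ ≤ D ∧ α ∈ repartitionsOf D := by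
  classical
  have hfin := rr_repartition_finite_poles α
  let E : Divisor K F := Finsupp.ofSupportFinite
    (fun v => max 0 (-(v.ord ((α : Place K F → F) v)))) (by
      refine hfin.subset fun v hv => ?_
      rw [Function.mem_support] at hv
      rw [Set.mem_ofPred_eq]
      by_contra hcon
      apply hv
      have : 0 ≤ v.ord ((α : Place K F → F) v) := not_lt.mp hcon
      exact max_eq_left (by omega))
  have hE : ∀ v, E v = max 0 (-(v.ord ((α : Place K F → F) v))) := fun v => rfl
  refine ⟨D₁ ⊔ E, le_sup_left, ?_⟩
  refine repartitionsOf_mono (le_sup_right : E ≤ D₁ ⊔ E) ?_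
  rw [mem_repartitionsOf_iff]
  intro v
  right
  rw [hE]
  have := le_max_right 0 (-(v.ord ((α : Place K F → F) v)))
  omega

/-! ### The constant embedding `F → A` -/

/-- The diagonal embedding of `F` into the repartitions, as a `K`-linear map. -/
def rrDiag : F →ₗ[K] ↥(repartitions K F) :=
  (Algebra.linearMap F ↥(repartitions K F)).restrictScalars K

@[simp]
theorem rrDiag_apply (f : F) (v : Place K F) :
    ((rrDiag (K := K) f : ↥(repartitions K F)) : Place K F → F) v = f := rfl

theorem rrDiag_mem_principal (f : F) : rrDiag (K := K) f ∈ principalRepartitions K F := by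
  rw [mem_principalRepartitions_iff]
  exact ⟨f, rfl⟩

theorem rr_mem_principal_iff {α : ↥(repartitions K F)} :
    α ∈ principalRepartitions K F ↔ ∃ f : F, α = rrDiag (K := K) f := by
  rw [mem_principalRepartitions_iff]
  constructor
  · rintro ⟨f, hf⟩
    exact ⟨f, Subtype.ext hf⟩
  · rintro ⟨f, rfl⟩
    exact ⟨f, rfl⟩

@[simp]
theorem rr_coe_sub_apply (α β : ↥(repartitions K F)) (v : Place K F) :
    ((α - β : ↥(repartitions K F)) : Place K F → F) v =
      (α : Place K F → F) v - (β : Place K F → F) v := rfl

@[simp]
theorem rr_coe_add_apply (α β : ↥(repartitions K F)) (v : Place K F) :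
    ((α + β : ↥(repartitions K F)) : Place K F → F) v =
      (α : Place K F → F) v + (β : Place K F → F) v := rfl

@[simp]
theorem rr_coe_smul_apply (c : K) (α : ↥(repartitions K F)) (v : Place K F) :
    ((c • α : ↥(repartitions K F)) : Place K F → F) v = c • (α : Place K F → F) v := rfl

/-! ### One-step lemma, first case: `L(D + v) ≠ L(D)` -/

theorem rr_adele_onestep_of_ne (D : Divisor K F) (v : Place K F) (hdeg : v.deg = 1)
    (hne : ¬ riemannRochSpace (D + Finsupp.single v 1) ≤ riemannRochSpace D) :
    repartitionsOf (D + Finsupp.single v 1) ⊔ principalRepartitions K F =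
      repartitionsOf D ⊔ principalRepartitions K F := by
  apply le_antisymm
  · refine sup_le ?_ le_sup_right
    obtain ⟨f₀, hf₀, hf₀'⟩ := SetLike.not_le_iff_exists.mp hne
    obtain ⟨hf₀0, hord⟩ := rr_ord_eq_of_mem_of_notMem hf₀ hf₀'
    intro α hα
    have hαv := (mem_repartitionsOf_iff.mp hα) v
    rw [rr_add_single_apply_same] at hαv
    obtain ⟨c, hc⟩ := rr_exists_const_sub v hdeg (-(D v + 1)) hf₀0 hord
      (x := (α : Place K F → F) v) (by rcases hαv with h | h; exact Or.inl h; right; omega)
    have key : α - c • rrDiag (K := K) f₀ ∈ repartitionsOf D := by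
      rw [mem_repartitionsOf_iff]
      intro w
      rw [rr_coe_sub_apply, rr_coe_smul_apply, rrDiag_apply]
      by_cases hwv : w = v
      · subst hwv
        rcases hc with hc | hc
        · exact Or.inl hc
        · right; omega
      · have h1 := (mem_repartitionsOf_iff.mp hα) w
        have h2 := (mem_riemannRochSpace_iff.mp hf₀) w
        rw [rr_add_single_apply_ne D 1 hwv] at h1 h2
        exact rr_ord_sub_smul_ge w _ c h1 h2
    have : α = (α - c • rrDiag (K := K) f₀) + c • rrDiag (K := K) f₀ := by abel
    rw [this]
    exact Submodule.add_mem_sup key (Submodule.smul_mem _ _ (rrDiag_mem_principal f₀))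
  · exact sup_le_sup_right (repartitionsOf_mono (rr_le_add_single D v)) _

/-! ### One-step lemma, second case: `L(D + v) = L(D)` -/

/-- The repartition with value `x` at `v` and `0` elsewhere. -/
def rrSingle (v : Place K F) (x : F) : ↥(repartitions K F) :=
  ⟨fun w => by classical exact if w = v then x else 0,
    mem_repartitions_of_finite_ord (by
      classical
      refine (Set.finite_singleton v).subset fun w hw => ?_
      rw [Set.mem_ofPred_eq] at hw
      rw [Set.mem_singleton_iff]
      by_contra hne
      rw [if_neg hne] at hw
      simp at hw)⟩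

theorem rrSingle_apply_same (v : Place K F) (x : F) :
    ((rrSingle v x : ↥(repartitions K F)) : Place K F → F) v = x := by
  classical
  show (if v = v then x else 0) = x
  rw [if_pos rfl]

theorem rrSingle_apply_ne (v : Place K F) (x : F) {w : Place K F} (h : w ≠ v) :
    ((rrSingle v x : ↥(repartitions K F)) : Place K F → F) w = 0 := by
  classical
  show (if w = v then x else 0) = 0
  rw [if_neg h]

theorem rr_exists_ord_eq (v : Place K F) (n : ℤ) : ∃ x : F, x ≠ 0 ∧ v.ord x = n := by
  obtain ⟨π, hπ, hord⟩ := Fermat.Agent.H23.exists_irreducible_ord_one v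
  have hπ0 : (π : F) ≠ 0 := by
    intro h
    rw [h] at hord
    simp at hord
  refine ⟨(π : F) ^ n, zpow_ne_zero _ hπ0, ?_⟩
  rw [v.ord_zpow, hord, mul_one]

theorem rr_adele_onestep_of_eq (D : Divisor K F) (v : Place K F) (hdeg : v.deg = 1)
    (heq : riemannRochSpace (D + Finsupp.single v 1) ≤ riemannRochSpace D) :
    ∃ e : ↥(repartitions K F),
      e ∈ repartitionsOf (D + Finsupp.single v 1) ⊔ principalRepartitions K F ∧
      e ∉ repartitionsOf D ⊔ principalRepartitions K F ∧
      ∀ x ∈ repartitionsOf (D + Finsupp.single v 1) ⊔ principalRepartitions K F,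
        ∃ c : K, x - c • e ∈ repartitionsOf D ⊔ principalRepartitions K F := by
  obtain ⟨t, ht0, htord⟩ := rr_exists_ord_eq v (-(D v + 1))
  have he_mem : rrSingle v t ∈ repartitionsOf (D + Finsupp.single v 1) := by
    rw [mem_repartitionsOf_iff]
    intro w
    by_cases hwv : w = v
    · subst hwv
      right
      rw [rrSingle_apply_same, rr_add_single_apply_same, htord]
    · left
      exact rrSingle_apply_ne v t hwv
  refine ⟨rrSingle v t, Submodule.mem_sup_left he_mem, ?_, ?_⟩
  · intro hmem
    obtain ⟨a, ha, b, hb, hab⟩ := Submodule.mem_sup.mp hmem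
    obtain ⟨f, rfl⟩ := rr_mem_principal_iff.mp hb
    have hval : ∀ w, (a : Place K F → F) w =
        ((rrSingle v t : ↥(repartitions K F)) : Place K F → F) w - f := by
      intro w
      have := congrArg (fun z : ↥(repartitions K F) => (z : Place K F → F) w) hab
      simp only [rr_coe_add_apply, rrDiag_apply] at this
      rw [← this]; ring
    have hav := (mem_repartitionsOf_iff.mp ha) v
    rw [hval v, rrSingle_apply_same] at hav
    -- `f` has order exactly `-(D v + 1)` at `v`
    have hf0 : f ≠ 0 := by
      intro h
      rw [h, sub_zero] at hav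
      rcases hav with h | h
      · exact ht0 h
      · omega
    have hfv : v.ord f = -(D v + 1) := by
      rcases hav with h | h
      · rw [← sub_eq_zero.mp h, htord]
      · by_contra hne
        rcases lt_or_gt_of_ne hne with hlt | hgt
        · -- ord f < ord t: ord (t - f) = ord f
          have h1 : v.ord (-f + t) = v.ord (-f) :=
            Fermat.Agent.H23.ord_add_eq_of_lt v (neg_ne_zero.mpr hf0) ht0
              (by rw [Fermat.Agent.H23.ord_neg, htord]; exact hlt)
          rw [neg_add_eq_sub, Fermat.Agent.H23.ord_neg] at h1
          omega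
        · have h1 : v.ord (t + -f) = v.ord t :=
            Fermat.Agent.H23.ord_add_eq_of_lt v ht0 (neg_ne_zero.mpr hf0)
              (by rw [Fermat.Agent.H23.ord_neg, htord]; exact hgt)
          rw [← sub_eq_add_neg] at h1
          omega
    have hfL : f ∈ riemannRochSpace (D + Finsupp.single v 1) := by
      rw [mem_riemannRochSpace_iff]
      intro w
      right
      by_cases hwv : w = v
      · subst hwv
        rw [rr_add_single_apply_same, hfv]
      · rw [rr_add_single_apply_ne D 1 hwv]
        have haw := (mem_repartitionsOf_iff.mp ha) w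
        rw [hval w, rrSingle_apply_ne v t hwv, zero_sub] at haw
        rcases haw with h | h
        · exact absurd (neg_eq_zero.mp h) hf0
        · rwa [Fermat.Agent.H23.ord_neg] at h
    have hfD := heq hfL
    have := ((mem_riemannRochSpace_iff.mp hfD) v).resolve_left hf0
    omega
  · intro x hx
    obtain ⟨a, ha, b, hb, rfl⟩ := Submodule.mem_sup.mp hx
    have hav := (mem_repartitionsOf_iff.mp ha) v
    rw [rr_add_single_apply_same] at hav
    obtain ⟨c, hc⟩ := rr_exists_const_sub v hdeg (-(D v + 1)) ht0 htord
      (x := (a : Place K F → F) v) (by rcases hav with h | h; exact Or.inl h; right; omega)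
    refine ⟨c, ?_⟩
    have key : a - c • rrSingle v t ∈ repartitionsOf D := by
      rw [mem_repartitionsOf_iff]
      intro w
      rw [rr_coe_sub_apply, rr_coe_smul_apply]
      by_cases hwv : w = v
      · subst hwv
        rw [rrSingle_apply_same]
        rcases hc with hc | hc
        · exact Or.inl hc
        · right; omega
      · rw [rrSingle_apply_ne v t hwv, smul_zero, sub_zero]
        have h1 := (mem_repartitionsOf_iff.mp ha) w
        rwa [rr_add_single_apply_ne D 1 hwv] at h1
    have : a + b - c • rrSingle v t = (a - c • rrSingle v t) + b := by abel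
    rw [this]
    exact Submodule.add_mem_sup key hb

end Fermat.Agent.H58

end
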