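/-
Riemann's theorem (adelic form), part 4 (helper58): abstract linear algebra on quotients
`V ⧸ M → V ⧸ M'` for `M ≤ M'`.
-/
import Mathlib

set_option autoImplicit false
set_option linter.style.haveILetI false

noncomputable section

namespace Fermat.Agent.H58

variable {K V : Type*} [Field K] [AddCommGroup V] [Module K V]

/-- Equal submodules: same finiteness and same dimension of the quotient. -/
theorem rr_quot_of_eq {M M' : Submodule K V} (h : M = M') :
    (Module.Finite K (V ⧸ M) ↔ Module.Finite K (V ⧸ M')) ∧
      Module.finrank K (V ⧸ M) = Module.finrank K (V ⧸ M') := by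
  subst h
  exact ⟨Iff.rfl, rfl⟩

/-- A quotient by a larger submodule is finite if the quotient by the smaller one is. -/
theorem rr_quot_finite_of_le {M M' : Submodule K V} (h : M ≤ M')
    [Module.Finite K (V ⧸ M)] : Module.Finite K (V ⧸ M') :=
  Module.Finite.of_surjective (Submodule.mapQ M M' LinearMap.id h) (by
    intro x
    obtain ⟨y, rfl⟩ := Submodule.Quotient.mk_surjective _ x
    exact ⟨Submodule.Quotient.mk y, by simp⟩)

/-- One-dimensional step: if `M' = M + K e` with `e ∉ M`, then
`dim V/M = dim V/M' + 1`. -/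
theorem rr_quot_onestep {M M' : Submodule K V} (h : M ≤ M') (e : V) (he : e ∈ M')
    (he' : e ∉ M) (hspan : ∀ x ∈ M', ∃ c : K, x - c • e ∈ M)
    [Module.Finite K (V ⧸ M')] :
    Module.Finite K (V ⧸ M) ∧
      Module.finrank K (V ⧸ M) = Module.finrank K (V ⧸ M') + 1 := by
  set N : Submodule K (V ⧸ M) := M'.map M.mkQ with hN
  have hNspan : N = Submodule.span K {M.mkQ e} := by
    apply le_antisymm
    · rintro _ ⟨x, hx, rfl⟩
      obtain ⟨c, hc⟩ := hspan x hx
      rw [Submodule.mem_span_singleton]
      refine ⟨c, ?_⟩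
      rw [← map_smul, ← sub_eq_zero, ← map_sub, Submodule.mkQ_apply,
        Submodule.Quotient.mk_eq_zero]
      have : c • e - x = -(x - c • e) := by abel
      rw [this]
      exact M.neg_mem hc
    · rw [Submodule.span_singleton_le_iff_mem]
      exact ⟨e, he, rfl⟩
  have hne : M.mkQ e ≠ 0 := by
    rw [Submodule.mkQ_apply, Ne, Submodule.Quotient.mk_eq_zero]
    exact he'
  have hNrank : Module.finrank K N = 1 := by
    rw [hNspan]; exact finrank_span_singleton hne
  haveI hNfin : Module.Finite K N := by
    rw [hNspan]; exact Module.Finite.span_singleton K _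
  let φ : ((V ⧸ M) ⧸ N) ≃ₗ[K] V ⧸ M' := Submodule.quotientQuotientEquivQuotient M M' h
  haveI hQfin : Module.Finite K ((V ⧸ M) ⧸ N) := Module.Finite.equiv φ.symm
  haveI hfin : Module.Finite K (V ⧸ M) := Module.Finite.of_submodule_quotient N
  refine ⟨hfin, ?_⟩
  have h1 := Submodule.finrank_quotient_add_finrank N
  rw [hNrank, φ.finrank_eq] at h1
  exact h1.symm

end Fermat.Agent.H58

end
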