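/-
Riemann's theorem (adelic form), part 5 (helper58): the main theorem

  `Module.Finite K (H1 D)` and `l(D) - dim H1(D) = deg D + 1 - genusFF K F`

for a function field `F/K` all of whose places have degree one, with principal divisors of
degree zero, and satisfying a growth condition `l(mB) ≥ m deg B - γ`.
-/
import Fermat.Agent.H58.RR.Adele
import Fermat.Agent.H58.RR.Quot

set_option autoImplicit false
set_option linter.style.haveILetI false

noncomputable section

open AlgebraicCurve

namespace Fermat.Agent.H58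

variable {K F : Type*} [Field K] [Field F] [Algebra K F]

/-! ### The one-step comparison of `l - i` -/

theorem rr_step [HasPrincipalDivisors K F] (hdeg : ∀ v : Place K F, v.deg = 1)
    (v₀ : Place K F) (D : Divisor K F) (v : Place K F) :
    (Module.Finite K (H1 D) ↔ Module.Finite K (H1 (D + Finsupp.single v 1))) ∧
      (Module.Finite K (H1 (D + Finsupp.single v 1)) →
        (Module.finrank K (riemannRochSpace (D + Finsupp.single v 1)) : ℤ) -
            Module.finrank K (H1 (D + Finsupp.single v 1)) =
          (Module.finrank K (riemannRochSpace D) : ℤ) - Module.finrank K (H1 D) + 1) := by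
  haveI := rr_space_finite hdeg v₀ D
  haveI := rr_space_finite hdeg v₀ (D + Finsupp.single v 1)
  have hmono : riemannRochSpace D ≤ riemannRochSpace (D + Finsupp.single v 1) :=
    rr_space_mono (rr_le_add_single D v)
  have hMle : repartitionsOf D ⊔ principalRepartitions K F ≤
      repartitionsOf (D + Finsupp.single v 1) ⊔ principalRepartitions K F :=
    sup_le_sup_right (repartitionsOf_mono (rr_le_add_single D v)) _
  by_cases hle : riemannRochSpace (D + Finsupp.single v 1) ≤ riemannRochSpace D
  · -- `L` does not grow, `H1` drops by one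
    have hLeq : riemannRochSpace (D + Finsupp.single v 1) = riemannRochSpace D :=
      le_antisymm hle hmono
    obtain ⟨e, he, he', hspan⟩ := rr_adele_onestep_of_eq D v (hdeg v) hle
    refine ⟨⟨fun h => ?_, fun h => ?_⟩, fun h => ?_⟩
    · haveI := h
      exact rr_quot_finite_of_le hMle
    · haveI := h
      exact (rr_quot_onestep hMle e he he' hspan).1
    · haveI := h
      have h1 := (rr_quot_onestep hMle e he he' hspan).2
      have h2 : Module.finrank K (H1 D) =
          Module.finrank K (H1 (D + Finsupp.single v 1)) + 1 := h1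
      rw [hLeq, h2]
      push_cast
      ring
  · -- `L` grows by one, `H1` is unchanged
    have hMeq := rr_adele_onestep_of_ne D v (hdeg v) hle
    have hlt : riemannRochSpace D < riemannRochSpace (D + Finsupp.single v 1) :=
      lt_of_le_of_ne hmono (fun h => hle h.ge)
    have h1 := Submodule.finrank_lt_finrank_of_lt hlt
    have h2 := (rr_finrank_onestep D v (hdeg v)).2.2
    have h3 : Module.finrank K (riemannRochSpace (D + Finsupp.single v 1)) =
        Module.finrank K (riemannRochSpace D) + 1 := by omega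
    obtain ⟨h4, h5⟩ := rr_quot_of_eq hMeq
    refine ⟨h4.symm, fun _ => ?_⟩
    have h6 : Module.finrank K (H1 (D + Finsupp.single v 1)) = Module.finrank K (H1 D) := h5
    rw [h3, h6]
    push_cast
    ring

/-- The statement transported along the induction. -/
def RRAt (D : Divisor K F) (c : ℤ) : Prop :=
  Module.Finite K (H1 D) ∧
    (Module.finrank K (riemannRochSpace D) : ℤ) - Module.finrank K (H1 D) - Divisor.degree D = c

theorem rrAt_step [HasPrincipalDivisors K F] (hdeg : ∀ v : Place K F, v.deg = 1)
    (v₀ : Place K F) (D : Divisor K F) (v : Place K F) (c : ℤ) :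
    RRAt D c ↔ RRAt (D + Finsupp.single v 1) c := by
  obtain ⟨h1, h2⟩ := rr_step hdeg v₀ D v
  unfold RRAt
  rw [rr_degree_add_single hdeg]
  constructor
  · rintro ⟨hf, hc⟩
    have hf' := h1.mp hf
    refine ⟨hf', ?_⟩
    have := h2 hf'
    omega
  · rintro ⟨hf', hc⟩
    refine ⟨h1.mpr hf', ?_⟩
    have := h2 hf'
    omega

theorem rrAt_of_le [HasPrincipalDivisors K F] (hdeg : ∀ v : Place K F, v.deg = 1)
    (v₀ : Place K F) {D D' : Divisor K F} (h : D ≤ D') (c : ℤ) :
    RRAt D c ↔ RRAt D' c := by
  constructor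
  · intro hD
    exact rr_induction_le hdeg (P := fun X => RRAt X c) D hD
      (fun X v _ hX => (rrAt_step hdeg v₀ X v c).mp hX) D' h
  · intro hD'
    exact rr_induction_ge hdeg (P := fun X => RRAt X c) D' hD'
      (fun X v _ hX => (rrAt_step hdeg v₀ X v c).mpr hX) D h

theorem rrAt_iff [HasPrincipalDivisors K F] (hdeg : ∀ v : Place K F, v.deg = 1)
    (v₀ : Place K F) (D D' : Divisor K F) (c : ℤ) :
    RRAt D c ↔ RRAt D' c :=
  (rrAt_of_le hdeg v₀ (le_sup_left : D ≤ D ⊔ D') c).trans
    (rrAt_of_le hdeg v₀ (le_sup_right : D' ≤ D ⊔ D') c).symm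

theorem rr_H1_subsingleton_of_top {D : Divisor K F}
    (h : repartitionsOf D ⊔ principalRepartitions K F = ⊤) : Subsingleton (H1 D) := by
  refine ⟨fun x y => ?_⟩
  obtain ⟨a, rfl⟩ := Submodule.Quotient.mk_surjective _ x
  obtain ⟨b, rfl⟩ := Submodule.Quotient.mk_surjective _ y
  rw [Submodule.Quotient.eq, h]
  exact Submodule.mem_top

/-- **Riemann's theorem**, assuming `A(D₀) + F = A` for some `D₀`. -/
theorem rr_riemann_of_top [HasPrincipalDivisors K F] (hdeg : ∀ v : Place K F, v.deg = 1)
    (v₀ : Place K F) (D₀ : Divisor K F)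
    (hD₀ : repartitionsOf D₀ ⊔ principalRepartitions K F = ⊤) (D : Divisor K F) :
    Module.Finite K (H1 D) ∧
      (Module.finrank K (riemannRochSpace D) : ℤ) - Module.finrank K (H1 D) =
        Divisor.degree D + 1 - (genusFF K F : ℤ) := by
  haveI := rr_H1_subsingleton_of_top hD₀
  set c : ℤ := (Module.finrank K (riemannRochSpace D₀) : ℤ) - Module.finrank K (H1 D₀) -
    Divisor.degree D₀ with hc
  have h0 : RRAt D₀ c := ⟨inferInstance, rfl⟩
  have hzero : RRAt (0 : Divisor K F) c := (rrAt_iff hdeg v₀ D₀ 0 c).mp h0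
  have hD : RRAt D c := (rrAt_iff hdeg v₀ D₀ D c).mp h0
  obtain ⟨-, hz⟩ := hzero
  rw [rr_finrank_zero hdeg v₀, map_zero] at hz
  have hg : (genusFF K F : ℤ) = Module.finrank K (H1 (0 : Divisor K F)) := rfl
  obtain ⟨hfin, hD'⟩ := hD
  refine ⟨hfin, ?_⟩
  rw [hg]
  omega

/-! ### Linear equivalence -/

theorem rr_finrank_add_principal (D E : Divisor K F) {z : F} (hz : z ≠ 0)
    (hE : ∀ v : Place K F, E v = v.ord z) :
    Module.finrank K (riemannRochSpace (D + E)) = Module.finrank K (riemannRochSpace D) := by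
  have hinj : Function.Injective (LinearMap.mulLeft K z) := fun a b hab => by
    simpa [hz] using hab
  have hmap : (riemannRochSpace (D + E)).map (LinearMap.mulLeft K z) = riemannRochSpace D := by
    ext f
    rw [Submodule.mem_map]
    constructor
    · rintro ⟨g, hg, rfl⟩
      rw [mem_riemannRochSpace_iff] at hg ⊢
      intro v
      rcases hg v with h | h
      · left; simp [h]
      · rcases eq_or_ne g 0 with rfl | hg0
        · left; simp
        right
        rw [LinearMap.mulLeft_apply, v.ord_mul hz hg0]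
        rw [Finsupp.add_apply, hE v] at h
        omega
    · intro hf
      refine ⟨z⁻¹ * f, ?_, by simp [hz]⟩
      rw [mem_riemannRochSpace_iff] at hf ⊢
      intro v
      rcases eq_or_ne f 0 with rfl | hf0
      · left; simp
      right
      have := (hf v).resolve_left hf0
      rw [v.ord_mul (inv_ne_zero hz) hf0, v.ord_inv, Finsupp.add_apply, hE v]
      omega
  rw [← hmap]
  exact (LinearEquiv.finrank_eq (Submodule.equivMapOfInjective _ hinj _))

/-! ### Boundedness of `deg D - l(D)` from the growth hypothesis -/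

theorem rr_bounded [HasPrincipalDivisors K F] (hdeg : ∀ v : Place K F, v.deg = 1)
    (v₀ : Place K F) (B : Divisor K F) (γ : ℤ) (hB : 0 < Divisor.degree B)
    (hgrow : ∀ m : ℕ, (m : ℤ) * Divisor.degree B - γ ≤
      (Module.finrank K (riemannRochSpace (m • B)) : ℤ)) (A : Divisor K F) :
    Divisor.degree A - (Module.finrank K (riemannRochSpace A) : ℤ) ≤ γ := by
  set A₁ : Divisor K F := A ⊔ 0 with hA₁
  have hAA₁ : A ≤ A₁ := le_sup_left
  have hA₁0 : 0 ≤ A₁ := le_sup_right
  set m : ℕ := (γ + Divisor.degree A₁ + 1).toNat with hm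
  have hm1 : γ + Divisor.degree A₁ + 1 ≤ (m : ℤ) := Int.self_le_toNat _
  have hm2 : (m : ℤ) ≤ (m : ℤ) * Divisor.degree B := by
    have : (0 : ℤ) ≤ (m : ℤ) := Int.natCast_nonneg m
    nlinarith
  -- `l(mB - A₁) > 0`
  have hle1 : m • B - A₁ ≤ m • B := by
    rw [sub_le_self_iff]; exact hA₁0
  have h1 := (rr_finrank_le_of_le hdeg v₀ hle1).2
  have h2 := hgrow m
  have hdegsub : Divisor.degree (m • B - A₁) = (m : ℤ) * Divisor.degree B - Divisor.degree A₁ := by
    rw [map_sub, map_nsmul]; simp
  have hdegm : Divisor.degree (m • B) = (m : ℤ) * Divisor.degree B := by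
    rw [map_nsmul]; simp
  have hpos : 0 < Module.finrank K (riemannRochSpace (m • B - A₁)) := by
    have : (0 : ℤ) < (Module.finrank K (riemannRochSpace (m • B - A₁)) : ℤ) := by
      rw [hdegsub, hdegm] at h1
      omega
    exact_mod_cast this
  haveI := rr_space_finite hdeg v₀ (m • B - A₁)
  have hnt : Nontrivial (riemannRochSpace (m • B - A₁)) :=
    Module.finrank_pos_iff.mp hpos
  obtain ⟨⟨z, hz⟩, hz0⟩ := exists_ne (0 : riemannRochSpace (m • B - A₁))
  have hz0' : z ≠ 0 := fun h => hz0 (Subtype.ext h)
  obtain ⟨E, hE, hE0⟩ := HasPrincipalDivisors.exists_divisor (K := K) z hz0'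
  -- `D := A₁ - (z) ≤ mB`
  have hDle : A₁ + (-E) ≤ m • B := by
    rw [Finsupp.le_def]
    intro v
    have := ((mem_riemannRochSpace_iff.mp hz) v).resolve_left hz0'
    simp only [Finsupp.coe_sub, Pi.sub_apply] at this
    simp only [Finsupp.coe_add, Pi.add_apply, Finsupp.coe_neg, Pi.neg_apply, hE v]
    omega
  have hz0inv : z⁻¹ ≠ 0 := inv_ne_zero hz0'
  have hl : Module.finrank K (riemannRochSpace (A₁ + (-E))) =
      Module.finrank K (riemannRochSpace A₁) :=
    rr_finrank_add_principal A₁ (-E) hz0inv (fun v => by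
      rw [Finsupp.neg_apply, hE v, v.ord_inv])
  have hdegD : Divisor.degree (A₁ + (-E)) = Divisor.degree A₁ := by
    rw [map_add, map_neg, hE0]; simp
  have h3 := (rr_finrank_le_of_le hdeg v₀ hDle).2
  have h4 := (rr_finrank_le_of_le hdeg v₀ hAA₁).2
  rw [hl, hdegD, hdegm] at h3
  omega

/-! ### Existence of `D₀` with `A(D₀) + F = A` -/

theorem rr_exists_top [HasPrincipalDivisors K F] (hdeg : ∀ v : Place K F, v.deg = 1)
    (v₀ : Place K F) (γ : ℤ)
    (hbdd : ∀ A : Divisor K F,
      Divisor.degree A - (Module.finrank K (riemannRochSpace A) : ℤ) ≤ γ) :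
    ∃ D₀ : Divisor K F, repartitionsOf D₀ ⊔ principalRepartitions K F = ⊤ := by
  -- choose `D₀` maximising `deg - l`
  obtain ⟨n₀, ⟨D₀, hD₀⟩, hmax⟩ := Int.exists_greatest_of_bdd
    (P := fun n => ∃ D : Divisor K F,
      Divisor.degree D - (Module.finrank K (riemannRochSpace D) : ℤ) = n)
    ⟨γ, fun n ⟨D, hD⟩ => hD ▸ hbdd D⟩ ⟨_, 0, rfl⟩
  have hconst : ∀ D : Divisor K F, D₀ ≤ D →
      Divisor.degree D - (Module.finrank K (riemannRochSpace D) : ℤ) = n₀ := by
    intro D hD
    have h1 := (rr_finrank_le_of_le hdeg v₀ hD).2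
    have h2 := hmax _ ⟨D, rfl⟩
    omega
  have hstep : ∀ D : Divisor K F, D₀ ≤ D →
      repartitionsOf D ⊔ principalRepartitions K F =
        repartitionsOf D₀ ⊔ principalRepartitions K F := by
    intro D hD
    refine rr_induction_le hdeg (P := fun D => repartitionsOf D ⊔ principalRepartitions K F =
        repartitionsOf D₀ ⊔ principalRepartitions K F) D₀ rfl ?_ D hD
    intro D' v hD' hP
    have h1 := hconst D' hD'
    have h2 := hconst (D' + Finsupp.single v 1) (hD'.trans (rr_le_add_single D' v))
    rw [rr_degree_add_single hdeg] at h2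
    have hne : ¬ riemannRochSpace (D' + Finsupp.single v 1) ≤ riemannRochSpace D' := by
      intro hle
      have heq : riemannRochSpace (D' + Finsupp.single v 1) = riemannRochSpace D' :=
        le_antisymm hle (rr_space_mono (rr_le_add_single D' v))
      rw [heq] at h2
      omega
    rw [rr_adele_onestep_of_ne D' v (hdeg v) hne, hP]
  refine ⟨D₀, eq_top_iff.mpr fun α _ => ?_⟩
  obtain ⟨D, hD, hα⟩ := rr_exists_mem_repartitionsOf α D₀
  rw [← hstep D hD]
  exact Submodule.mem_sup_left hα

/-! ### Packaged form -/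

/-- Standing hypotheses for Riemann's theorem: all places have degree one (e.g. `K`
algebraically closed), principal divisors exist and have degree zero, and a growth condition
(which follows from the existence of a separating/finite morphism to `ℙ¹`). -/
structure RRHyp (K F : Type*) [Field K] [Field F] [Algebra K F] : Prop where
  deg_one : ∀ v : Place K F, v.deg = 1
  principal : HasPrincipalDivisors K F
  growth : ∃ (B : Divisor K F) (γ : ℤ), 0 < Divisor.degree B ∧
    ∀ m : ℕ, (m : ℤ) * Divisor.degree B - γ ≤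
      (Module.finrank K (riemannRochSpace (m • B)) : ℤ)

theorem RRHyp.exists_place (h : RRHyp K F) : Nonempty (Place K F) := by
  obtain ⟨B, γ, hB, -⟩ := h.growth
  by_contra hcon
  rw [not_nonempty_iff] at hcon
  have : B = 0 := by
    ext v
    exact (hcon.false v).elim
  rw [this, map_zero] at hB
  exact lt_irrefl _ hB

theorem RRHyp.exists_top (h : RRHyp K F) :
    ∃ D₀ : Divisor K F, repartitionsOf D₀ ⊔ principalRepartitions K F = ⊤ := by
  haveI := h.principal
  obtain ⟨v₀⟩ := h.exists_place
  obtain ⟨B, γ, hB, hgrow⟩ := h.growth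
  exact rr_exists_top h.deg_one v₀ γ (rr_bounded h.deg_one v₀ B γ hB hgrow)

/-- **Riemann's theorem (adelic form)**: `H1(D)` is finite-dimensional and
`l(D) - dim H1(D) = deg D + 1 - g` with `g = genusFF K F`. -/
theorem RRHyp.riemann (h : RRHyp K F) (D : Divisor K F) :
    Module.Finite K (H1 D) ∧
      (Module.finrank K (riemannRochSpace D) : ℤ) - Module.finrank K (H1 D) =
        Divisor.degree D + 1 - (genusFF K F : ℤ) := by
  haveI := h.principal
  obtain ⟨v₀⟩ := h.exists_place
  obtain ⟨D₀, hD₀⟩ := h.exists_top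
  exact rr_riemann_of_top h.deg_one v₀ D₀ hD₀ D

theorem RRHyp.finite_H1 (h : RRHyp K F) (D : Divisor K F) : Module.Finite K (H1 D) :=
  (h.riemann D).1

theorem RRHyp.finite_space (h : RRHyp K F) (D : Divisor K F) :
    Module.Finite K (riemannRochSpace D) := by
  haveI := h.principal
  obtain ⟨v₀⟩ := h.exists_place
  exact rr_space_finite h.deg_one v₀ D

/-- **Riemann's inequality**. -/
theorem RRHyp.riemann_inequality (h : RRHyp K F) (D : Divisor K F) :
    Divisor.degree D + 1 - (genusFF K F : ℤ) ≤
      (Module.finrank K (riemannRochSpace D) : ℤ) := by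
  have := (h.riemann D).2
  have h2 : (0 : ℤ) ≤ (Module.finrank K (H1 D) : ℤ) := Int.natCast_nonneg _
  omega

end Fermat.Agent.H58

end
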