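/-
Riemann's theorem (adelic form), part 6 (helper58): the growth hypothesis of `RRHyp` from a
finite map to the projective line: if `x` is transcendental, `F / K(x)` is finite of degree `n`
and the pole divisor `B` of `x` has degree `≤ n`, then `l(mB) ≥ m deg B - γ`.
-/
import Fermat.Agent.H58.RR.Riemann

set_option autoImplicit false
set_option linter.style.haveILetI false

noncomputable section

open AlgebraicCurve IntermediateField

namespace Fermat.Agent.H58

variable {K F : Type*} [Field K] [Field F] [Algebra K F]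

theorem rr_mem_space_iff_diag (f : F) (D : Divisor K F) :
    rrDiag (K := K) f ∈ repartitionsOf D ↔ f ∈ riemannRochSpace D := by
  rw [mem_repartitionsOf_iff, mem_riemannRochSpace_iff]
  rfl

/-- Finitely many functions lie in a common `L(C)` with `C ≥ 0`. -/
theorem rr_exists_common_divisor [HasPrincipalDivisors K F] {ι : Type*} (s : Finset ι)
    (u : ι → F) : ∃ C : Divisor K F, 0 ≤ C ∧ ∀ i ∈ s, u i ∈ riemannRochSpace C := by
  classical
  induction s using Finset.induction_on with
  | empty => exact ⟨0, le_rfl, fun i hi => absurd hi (Finset.notMem_empty i)⟩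
  | insert a s _ ih =>
    obtain ⟨C, hC0, hC⟩ := ih
    obtain ⟨D, hCD, hD⟩ := rr_exists_mem_repartitionsOf (rrDiag (K := K) (u a)) C
    refine ⟨D, hC0.trans hCD, fun i hi => ?_⟩
    rcases Finset.mem_insert.mp hi with rfl | hi
    · exact (rr_mem_space_iff_diag _ _).mp hD
    · exact rr_space_mono hCD (hC i hi)

/-- Powers of a transcendental element are linearly independent. -/
theorem rr_linearIndependent_pow {x : F} (hx : Transcendental K x) :
    LinearIndependent K (fun j : ℕ => (⟨x, mem_adjoin_simple_self K x⟩ : K⟮x⟯) ^ j) := by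
  have h1 : LinearIndependent K (fun j : ℕ => (Polynomial.X : Polynomial K) ^ j) := by
    have := (Polynomial.basisMonomials K).linearIndependent
    rw [Polynomial.coe_basisMonomials] at this
    have heq : (fun j : ℕ => (Polynomial.X : Polynomial K) ^ j) =
        fun s => Polynomial.monomial s (1 : K) :=
      funext fun j => Polynomial.X_pow_eq_monomial j
    rw [heq]; exact this
  have hinj : Function.Injective (Polynomial.aeval (R := K) x) :=
    transcendental_iff_injective.mp hx
  have h2 : LinearIndependent K (fun j : ℕ => x ^ j) := by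
    have := h1.map' (Polynomial.aeval (R := K) x).toLinearMap
      (LinearMap.ker_eq_bot.mpr hinj)
    simpa [Function.comp_def] using this
  refine LinearIndependent.of_comp (K⟮x⟯.val.toLinearMap) ?_
  simpa [Function.comp_def] using h2

theorem rr_growth_of_finite [HasPrincipalDivisors K F] (hdeg : ∀ v : Place K F, v.deg = 1)
    (v₀ : Place K F) (x : F) (hx : Transcendental K x) [FiniteDimensional K⟮x⟯ F]
    (B : Divisor K F) (hB0 : 0 ≤ B) (hBx : ∀ v : Place K F, -B v ≤ v.ord x)
    (hBdeg : Divisor.degree B ≤ (Module.finrank K⟮x⟯ F : ℤ)) :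
    ∃ γ : ℤ, ∀ m : ℕ, (m : ℤ) * Divisor.degree B - γ ≤
      (Module.finrank K (riemannRochSpace (m • B)) : ℤ) := by
  classical
  set n := Module.finrank K⟮x⟯ F with hn
  let b := Module.finBasis K⟮x⟯ F
  obtain ⟨C, hC0, hC⟩ := rr_exists_common_divisor (K := K) (Finset.univ : Finset (Fin n))
    (fun i => b i)
  have hx0 : x ≠ 0 := fun h => hx (h ▸ isAlgebraic_zero)
  refine ⟨Divisor.degree C - n, fun m => ?_⟩
  -- the family `x ^ j * b i`, `j ≤ m`
  have hli : LinearIndependent K
      (fun p : Fin (m + 1) × Fin n => x ^ (p.1 : ℕ) * b p.2) := by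
    have h1 : LinearIndependent K
        (fun j : Fin (m + 1) => (⟨x, mem_adjoin_simple_self K x⟩ : K⟮x⟯) ^ (j : ℕ)) :=
      (rr_linearIndependent_pow hx).comp _ Fin.val_injective
    have h2 := linearIndependent_smul h1 b.linearIndependent
    have heq : (fun p : Fin (m + 1) × Fin n => x ^ (p.1 : ℕ) * b p.2) =
        fun p : Fin (m + 1) × Fin n =>
          ((⟨x, mem_adjoin_simple_self K x⟩ : K⟮x⟯) ^ (p.1 : ℕ)) • b p.2 := by
      funext p
      rw [Algebra.smul_def]
      rfl
    rw [heq]; exact h2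
  have hmem : ∀ p : Fin (m + 1) × Fin n,
      x ^ (p.1 : ℕ) * b p.2 ∈ riemannRochSpace (m • B + C) := by
    rintro ⟨j, i⟩
    have hbi0 : b i ≠ 0 := b.ne_zero i
    have hbi := ((mem_riemannRochSpace_iff.mp (hC i (Finset.mem_univ i))))
    rw [mem_riemannRochSpace_iff]
    intro v
    right
    have h1 := (hbi v).resolve_left hbi0
    have h2 := hBx v
    have h3 : 0 ≤ B v := by simpa using Finsupp.le_def.mp hB0 v
    have hj : ((j : ℕ) : ℤ) ≤ m := by
      have := j.2
      omega
    have hj0 : (0 : ℤ) ≤ ((j : ℕ) : ℤ) := Int.natCast_nonneg _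
    show -(m • B + C) v ≤ v.ord (x ^ (j : ℕ) * b i)
    rw [v.ord_mul (pow_ne_zero _ hx0) hbi0, ← zpow_natCast, v.ord_zpow]
    have hval : (m • B + C) v = (m : ℤ) * B v + C v := by
      rw [Finsupp.add_apply, Finsupp.smul_apply, nsmul_eq_mul]
    rw [hval]
    have h4 : -((j : ℕ) : ℤ) * B v ≤ ((j : ℕ) : ℤ) * v.ord x := by nlinarith
    have h5 : ((j : ℕ) : ℤ) * B v ≤ (m : ℤ) * B v := by nlinarith
    linarith
  haveI := rr_space_finite hdeg v₀ (m • B + C)
  have hli' : LinearIndependent K
      (fun p : Fin (m + 1) × Fin n =>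
        (⟨x ^ (p.1 : ℕ) * b p.2, hmem p⟩ : riemannRochSpace (m • B + C))) :=
    LinearIndependent.of_comp (riemannRochSpace (m • B + C)).subtype hli
  have hcard := hli'.fintype_card_le_finrank
  rw [Fintype.card_prod, Fintype.card_fin, Fintype.card_fin] at hcard
  have hle : m • B ≤ m • B + C := le_add_of_nonneg_right hC0
  have h6 := (rr_finrank_le_of_le hdeg v₀ hle).2
  rw [map_add] at h6
  have hcard' : ((m : ℤ) + 1) * n ≤ (Module.finrank K (riemannRochSpace (m • B + C)) : ℤ) := by
    exact_mod_cast hcard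
  have h7 : (m : ℤ) * Divisor.degree B ≤ (m : ℤ) * n :=
    mul_le_mul_of_nonneg_left hBdeg (Int.natCast_nonneg m)
  linarith

/-- `RRHyp` from a finite map to the projective line. -/
theorem rrHyp_of_finite [hP : HasPrincipalDivisors K F] (hdeg : ∀ v : Place K F, v.deg = 1)
    (x : F) (hx : Transcendental K x) [FiniteDimensional K⟮x⟯ F]
    (B : Divisor K F) (hB0 : 0 ≤ B) (hBx : ∀ v : Place K F, -B v ≤ v.ord x)
    (hBdeg : Divisor.degree B ≤ (Module.finrank K⟮x⟯ F : ℤ)) (hBpos : 0 < Divisor.degree B) :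
    RRHyp K F := by
  have hne : B ≠ 0 := by
    rintro rfl
    simp at hBpos
  obtain ⟨v₀, -⟩ := Finsupp.ne_iff.mp hne
  obtain ⟨γ, hγ⟩ := rr_growth_of_finite hdeg v₀ x hx B hB0 hBx hBdeg
  exact ⟨hdeg, hP, B, γ, hBpos, hγ⟩

end Fermat.Agent.H58

end
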