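/-
Riemann's theorem (adelic form), part 7 (helper58): the hypotheses `RRHyp K F` hold for every
function field of one variable over an algebraically closed field of characteristic zero
(using the P-GENUS fundamental identity).  In particular Riemann's theorem holds for
`Qbar(X₀(N))` and `ℂ(X₀(N))`.
-/
import Fermat.Agent.H58.RR.Growth
import Fermat.Agent.H84.Gen1
import Fermat.Agent.H12.Gen2

set_option autoImplicit false
set_option linter.style.haveILetI false
set_option linter.unusedVariables false

noncomputable section

open AlgebraicCurve IntermediateField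

namespace Fermat.Agent.H58

variable (K F : Type) [Field K] [Field F] [Algebra K F] [IsAlgClosed K] [CharZero K]

theorem rr_finite_ord_ne_zero (x : F) (hx : Transcendental K x)
    (hfin : FiniteDimensional K⟮x⟯ F) (f : F) :
    {v : Place K F | v.ord f ≠ 0}.Finite := by
  by_cases hfa : IsAlgebraic K f
  · obtain ⟨c, rfl⟩ := Fermat.Agent.H12.exists_algebraMap_eq_of_isAlgebraic hfa
    have : {v : Place K F | v.ord (algebraMap K F c) ≠ 0} = ∅ := by
      ext v
      simp [Fermat.Agent.H23.ord_algebraMap]
    rw [this]
    exact Set.finite_empty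
  · have hft : Transcendental K f := hfa
    have hft' : Transcendental K f⁻¹ := by
      intro h
      apply hfa
      have := h.inv
      rwa [inv_inv] at this
    haveI := hfin
    have hfinf : FiniteDimensional K⟮f⟯ F :=
      Fermat.Agent.H12.finiteDimensional_adjoin_simple_of_transcendental x f hft
    have hfinf' : FiniteDimensional K⟮f⁻¹⟯ F :=
      Fermat.Agent.H12.finiteDimensional_adjoin_simple_of_transcendental x f⁻¹ hft'
    obtain ⟨-, h1, -⟩ := Fermat.Agent.H84.fundamentalIdentity K F f hft hfinf
    obtain ⟨-, h2, -⟩ := Fermat.Agent.H84.fundamentalIdentity K F f⁻¹ hft' hfinf'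
    refine (h1.union h2).subset fun v hv => ?_
    simp only [Set.mem_ofPred_eq, Set.mem_union, Place.ord_inv] at hv ⊢
    omega

theorem rr_hasPrincipalDivisors_charZero (x : F) (hx : Transcendental K x)
    (hfin : FiniteDimensional K⟮x⟯ F) : HasPrincipalDivisors K F := by
  refine ⟨fun f hf => ?_⟩
  let D : Divisor K F := Finsupp.ofSupportFinite (fun v => v.ord f)
    (rr_finite_ord_ne_zero K F x hx hfin f)
  have hD : ∀ v : Place K F, D v = v.ord f := fun v => rfl
  exact ⟨D, hD, Fermat.Agent.H12.principalDegree Fermat.Agent.H84.fundamentalIdentity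
    K F x hx hfin f hf D hD⟩

/-- **Riemann's theorem holds for function fields over algebraically closed fields of
characteristic zero.** -/
theorem rrHyp_charZero (x : F) (hx : Transcendental K x)
    (hfin : FiniteDimensional K⟮x⟯ F) : RRHyp K F := by
  classical
  haveI := hfin
  haveI hP := rr_hasPrincipalDivisors_charZero K F x hx hfin
  have hx0 : x ≠ 0 := fun h => hx (h ▸ isAlgebraic_zero)
  have hxi : Transcendental K x⁻¹ := by
    intro h
    apply hx
    have := h.inv
    rwa [inv_inv] at this
  have hfini : FiniteDimensional K⟮x⁻¹⟯ F := by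
    rw [Fermat.Agent.H12.adjoin_simple_inv]; exact hfin
  obtain ⟨hdeg, hfinset, hsum⟩ := Fermat.Agent.H84.fundamentalIdentity K F x⁻¹ hxi hfini
  -- the pole divisor of `x`
  let B : Divisor K F := Finsupp.ofSupportFinite (fun v => max 0 (-(v.ord x))) (by
    refine hfinset.subset fun v hv => ?_
    rw [Function.mem_support] at hv
    rw [Set.mem_ofPred_eq, Place.ord_inv]
    by_contra hcon
    exact hv (max_eq_left (by omega)))
  have hB : ∀ v : Place K F, B v = max 0 (-(v.ord x)) := fun v => rfl
  have hB0 : 0 ≤ B := by
    rw [Finsupp.le_def]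
    intro v
    rw [hB]
    exact le_max_left _ _
  have hBx : ∀ v : Place K F, -B v ≤ v.ord x := by
    intro v
    rw [hB]
    have := le_max_right 0 (-(v.ord x))
    omega
  have hBdeg : Divisor.degree B = (Module.finrank K⟮x⟯ F : ℤ) := by
    rw [Fermat.Agent.H12.adjoin_simple_inv] at hsum
    rw [← hsum, rr_degree_eq_sum_of_deg_one hdeg, Finsupp.sum]
    have hsupp : (B.support : Set (Place K F)) = {v : Place K F | 0 < v.ord x⁻¹} := by
      ext v
      rw [Finset.mem_coe, Finsupp.mem_support_iff, hB, Set.mem_ofPred_eq, Place.ord_inv]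
      constructor
      · intro h
        by_contra hcon
        exact h (max_eq_left (by omega))
      · intro h
        have := le_max_right 0 (-(v.ord x))
        omega
    rw [← hsupp, finsum_mem_coe_finset]
    refine Finset.sum_congr rfl fun v hv => ?_
    have hv' : v ∈ {v : Place K F | 0 < v.ord x⁻¹} := by
      rw [← hsupp]; exact hv
    rw [Set.mem_ofPred_eq, Place.ord_inv] at hv'
    rw [hB, Place.ord_inv]
    exact max_eq_right (by omega)
  have hpos : 0 < Module.finrank K⟮x⟯ F := Module.finrank_pos
  exact rrHyp_of_finite hdeg x hx B hB0 hBx hBdeg.le (by rw [hBdeg]; exact_mod_cast hpos)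

end Fermat.Agent.H58

end
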