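/-
Riemann's theorem for the modular function field `ℚ̄(X₀(N))` (helper58): the hypotheses
`RRHyp` hold for `ModularCurve.modularFunctionFieldBar N`, hence Riemann's theorem (adelic form)
and `HasPrincipalDivisors`.
-/
import Fermat.Agent.H58.RR.CharZero
import Fermat.Agent.H23.Final3

set_option autoImplicit false

noncomputable section

open AlgebraicCurve

namespace Fermat.Agent.H58

theorem rrHyp_modularFunctionFieldBar (N : ℕ) [NeZero N] :
    RRHyp (AlgebraicClosure ℚ) ↥(ModularCurve.modularFunctionFieldBar N) :=
  let h := Fermat.Agent.H23.degreeStatement_holds N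
  rrHyp_charZero _ _ (Fermat.Agent.H23.jBar N) h.1 h.2.1

theorem hasPrincipalDivisors_modularFunctionFieldBar (N : ℕ) [NeZero N] :
    HasPrincipalDivisors (AlgebraicClosure ℚ) ↥(ModularCurve.modularFunctionFieldBar N) :=
  (rrHyp_modularFunctionFieldBar N).principal

/-- **Riemann's theorem for `X₀(N)` over `ℚ̄`.** -/
theorem riemann_modularFunctionFieldBar (N : ℕ) [NeZero N]
    (D : Divisor (AlgebraicClosure ℚ) ↥(ModularCurve.modularFunctionFieldBar N)) :
    Module.Finite (AlgebraicClosure ℚ) (H1 D) ∧
      (Module.finrank (AlgebraicClosure ℚ) (riemannRochSpace D) : ℤ) -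
          Module.finrank (AlgebraicClosure ℚ) (H1 D) =
        Divisor.degree D + 1 -
          (genusFF (AlgebraicClosure ℚ) ↥(ModularCurve.modularFunctionFieldBar N) : ℤ) :=
  (rrHyp_modularFunctionFieldBar N).riemann D

end Fermat.Agent.H58

end
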