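/-
Riemann's theorem (adelic form), part 8 (helper58): consequences.
* `H1(D) = 0` for divisors of large degree;
* infinitely many places;
* non-special divisors: as long as `dim H1(D) > 0` one can add a point (outside any given
  finite set) without enlarging `L(D)`.
-/
import Fermat.Agent.H58.RR.Riemann

set_option autoImplicit false
set_option linter.style.haveILetI false

noncomputable section

open AlgebraicCurve

namespace Fermat.Agent.H58

variable {K F : Type*} [Field K] [Field F] [Algebra K F]

/-! ### Vanishing of `H1` -/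

theorem rr_finrank_H1_eq_zero_of_top {D : Divisor K F}
    (h : repartitionsOf D ⊔ principalRepartitions K F = ⊤) :
    Module.finrank K (H1 D) = 0 := by
  haveI := rr_H1_subsingleton_of_top h
  exact Module.finrank_zero_of_subsingleton

theorem rr_top_of_le {D₀ D : Divisor K F}
    (h : repartitionsOf D₀ ⊔ principalRepartitions K F = ⊤) (hle : D₀ ≤ D) :
    repartitionsOf D ⊔ principalRepartitions K F = ⊤ :=
  eq_top_iff.mpr (h ▸ sup_le_sup_right (repartitionsOf_mono hle) _)

theorem RRHyp.finrank_H1_eq (h : RRHyp K F) (D : Divisor K F) :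
    (Module.finrank K (H1 D) : ℤ) =
      (Module.finrank K (riemannRochSpace D) : ℤ) - Divisor.degree D - 1 + (genusFF K F : ℤ) := by
  have := (h.riemann D).2
  omega

theorem RRHyp.top_of_finrank_H1_eq_zero (h : RRHyp K F) {D : Divisor K F}
    (h0 : Module.finrank K (H1 D) = 0) :
    repartitionsOf D ⊔ principalRepartitions K F = ⊤ := by
  haveI := h.finite_H1 D
  have hsub : Subsingleton (H1 D) := Module.finrank_zero_iff.mp h0
  refine eq_top_iff.mpr fun α _ => ?_
  have : (Submodule.Quotient.mk α : H1 D) = 0 := Subsingleton.elim _ _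
  exact (Submodule.Quotient.mk_eq_zero _).mp this

/-- `dim H1` is invariant under linear equivalence. -/
theorem RRHyp.finrank_H1_add_principal (h : RRHyp K F) (D E : Divisor K F) {z : F} (hz : z ≠ 0)
    (hE : ∀ v : Place K F, E v = v.ord z) :
    Module.finrank K (H1 (D + E)) = Module.finrank K (H1 D) := by
  haveI := h.principal
  obtain ⟨E', hE', hE'0⟩ := HasPrincipalDivisors.exists_divisor (K := K) z hz
  have hEE : E = E' := by
    ext v
    rw [hE v, hE' v]
  subst hEE
  have h1 := h.finrank_H1_eq (D + E)
  have h2 := h.finrank_H1_eq D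
  rw [rr_finrank_add_principal D E hz hE, map_add, hE'0] at h1
  omega

/-- **`H1(D) = 0` for divisors of large degree.** -/
theorem RRHyp.exists_degree_bound (h : RRHyp K F) :
    ∃ c : ℤ, ∀ D : Divisor K F, c ≤ Divisor.degree D → Module.finrank K (H1 D) = 0 := by
  haveI := h.principal
  obtain ⟨D₀, hD₀⟩ := h.exists_top
  refine ⟨Divisor.degree D₀ + (genusFF K F : ℤ), fun D hD => ?_⟩
  have h1 := h.riemann_inequality (D - D₀)
  rw [map_sub] at h1
  have hpos : 0 < Module.finrank K (riemannRochSpace (D - D₀)) := by
    have : (0 : ℤ) < (Module.finrank K (riemannRochSpace (D - D₀)) : ℤ) := by omega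
    exact_mod_cast this
  haveI := h.finite_space (D - D₀)
  have hnt : Nontrivial (riemannRochSpace (D - D₀)) := Module.finrank_pos_iff.mp hpos
  obtain ⟨⟨z, hz⟩, hz0⟩ := exists_ne (0 : riemannRochSpace (D - D₀))
  have hz0' : z ≠ 0 := fun h => hz0 (Subtype.ext h)
  obtain ⟨E, hE, -⟩ := HasPrincipalDivisors.exists_divisor (K := K) z hz0'
  have hle : D₀ ≤ D + E := by
    rw [Finsupp.le_def]
    intro v
    have := ((mem_riemannRochSpace_iff.mp hz) v).resolve_left hz0'
    simp only [Finsupp.coe_sub, Pi.sub_apply] at this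
    simp only [Finsupp.coe_add, Pi.add_apply, hE v]
    omega
  rw [← h.finrank_H1_add_principal D E hz0' hE]
  exact rr_finrank_H1_eq_zero_of_top (rr_top_of_le hD₀ hle)

/-! ### Infinitely many places -/

theorem RRHyp.exists_nonconstant (h : RRHyp K F) :
    ∃ f : F, ∀ c : K, f ≠ algebraMap K F c := by
  haveI := h.principal
  obtain ⟨B, γ, hB, hgrow⟩ := h.growth
  -- a divisor with `l ≥ 2`
  set m : ℕ := (γ + 2).toNat with hm
  have hm1 : γ + 2 ≤ (m : ℤ) := Int.self_le_toNat _
  have hm2 : (m : ℤ) ≤ (m : ℤ) * Divisor.degree B := by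
    have : (0 : ℤ) ≤ (m : ℤ) := Int.natCast_nonneg m
    nlinarith
  have h2 : 2 ≤ Module.finrank K (riemannRochSpace (m • B)) := by
    have := hgrow m
    have : (2 : ℤ) ≤ (Module.finrank K (riemannRochSpace (m • B)) : ℤ) := by omega
    exact_mod_cast this
  haveI := h.finite_space (m • B)
  by_contra hcon
  simp only [not_exists, not_forall, not_not] at hcon
  have hle : riemannRochSpace (m • B) ≤ Submodule.span K {(1 : F)} := by
    intro f _
    obtain ⟨c, hc⟩ := hcon f
    rw [Submodule.mem_span_singleton]
    exact ⟨c, by rw [hc, Algebra.smul_def, mul_one]⟩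
  have h3 := Submodule.finrank_mono hle
  rw [finrank_span_singleton (one_ne_zero)] at h3
  omega

theorem RRHyp.exists_zero_sub (h : RRHyp K F) {f : F} (hf : ∀ c : K, f ≠ algebraMap K F c)
    (c : K) : ∃ v : Place K F, 0 < v.ord (f - algebraMap K F c) := by
  haveI := h.principal
  obtain ⟨v₀⟩ := h.exists_place
  by_contra hcon
  simp only [not_exists, not_lt] at hcon
  have hne : f - algebraMap K F c ≠ 0 := sub_ne_zero.mpr (hf c)
  have hinv : (f - algebraMap K F c)⁻¹ ∈ riemannRochSpace (0 : Divisor K F) := by
    rw [mem_riemannRochSpace_iff]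
    intro v
    right
    rw [v.ord_inv]
    have := hcon v
    simp only [Finsupp.coe_zero, Pi.zero_apply]
    omega
  obtain ⟨d, hd⟩ := (rr_mem_zero_iff h.deg_one v₀).mp hinv
  have hd0 : d ≠ 0 := by
    rintro rfl
    rw [map_zero] at hd
    exact inv_ne_zero hne hd
  apply hf (c + d⁻¹)
  have : f - algebraMap K F c = algebraMap K F d⁻¹ := by
    rw [map_inv₀, ← hd, inv_inv]
  rw [map_add, ← this]
  ring

theorem RRHyp.infinite_place (h : RRHyp K F) [Infinite K] : Infinite (Place K F) := by
  obtain ⟨f, hf⟩ := h.exists_nonconstant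
  choose φ hφ using h.exists_zero_sub hf
  refine Infinite.of_injective φ fun c c' hcc => ?_
  by_contra hne
  have h1 := hφ c
  have h2 := hφ c'
  rw [← hcc] at h2
  have h3 : algebraMap K F (c' - c) = (f - algebraMap K F c) + -(f - algebraMap K F c') := by
    rw [map_sub]; ring
  have hne' : algebraMap K F (c' - c) ≠ 0 := by
    rw [map_ne_zero]
    exact sub_ne_zero.mpr (Ne.symm hne)
  have h4 : 1 ≤ (φ c).ord (algebraMap K F (c' - c)) := by
    rw [h3]
    refine Fermat.Agent.H23.ord_add_ge (φ c) (h3 ▸ hne') 1 (Or.inr h1) (Or.inr ?_)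
    rw [Fermat.Agent.H23.ord_neg]
    exact h2
  rw [Fermat.Agent.H23.ord_algebraMap] at h4
  omega

/-! ### Sums of distinct places -/

/-- The divisor `∑_{v ∈ T} v`. -/
def rrSum (T : Finset (Place K F)) : Divisor K F := ∑ v ∈ T, Finsupp.single v (1 : ℤ)

@[simp]
theorem rrSum_empty : rrSum (∅ : Finset (Place K F)) = 0 := by
  simp [rrSum]

theorem rrSum_insert [DecidableEq (Place K F)] {T : Finset (Place K F)} {v : Place K F}
    (hv : v ∉ T) : rrSum (insert v T) = rrSum T + Finsupp.single v 1 := by
  rw [rrSum, Finset.sum_insert hv, add_comm]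
  rfl

theorem rrSum_apply_of_notMem {T : Finset (Place K F)} {v : Place K F} (hv : v ∉ T) :
    rrSum T v = 0 := by
  classical
  rw [rrSum, Finsupp.finsetSum_apply]
  refine Finset.sum_eq_zero fun w hw => ?_
  rw [Finsupp.single_apply, if_neg]
  rintro rfl
  exact hv hw

theorem rrSum_nonneg (T : Finset (Place K F)) : 0 ≤ rrSum T := by
  classical
  rw [rrSum]
  refine Finset.sum_nonneg fun v _ => ?_
  rw [Finsupp.le_def]
  intro w
  rw [Finsupp.single_apply]
  split_ifs <;> simp

theorem rr_degree_rrSum (hdeg : ∀ v : Place K F, v.deg = 1) (T : Finset (Place K F)) :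
    Divisor.degree (rrSum T) = T.card := by
  classical
  induction T using Finset.induction_on with
  | empty => simp
  | insert v T hv ih =>
    rw [rrSum_insert hv, rr_degree_add_single hdeg, ih, Finset.card_insert_of_notMem hv]
    push_cast; ring

/-! ### Non-special divisors -/

/-- If `L(D + v) ≠ L(D)` for all `v` outside a finite set `S`, then adding distinct points
outside `S` does not change `A(D) + F`. -/
theorem rr_sup_eq_of_forall_ne (hdeg : ∀ v : Place K F, v.deg = 1) (D : Divisor K F)
    (S : Finset (Place K F))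
    (hall : ∀ v : Place K F, v ∉ S →
      ¬ riemannRochSpace (D + Finsupp.single v 1) ≤ riemannRochSpace D)
    (T : Finset (Place K F)) (hT : Disjoint T S) :
    repartitionsOf (D + rrSum T) ⊔ principalRepartitions K F =
      repartitionsOf D ⊔ principalRepartitions K F := by
  classical
  induction T using Finset.induction_on with
  | empty => simp
  | insert v T hv ih =>
    have hTS : Disjoint T S := hT.mono_left (Finset.subset_insert v T)
    have hvS : v ∉ S := Finset.disjoint_left.mp hT (Finset.mem_insert_self v T)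
    rw [rrSum_insert hv, ← add_assoc]
    have hne : ¬ riemannRochSpace (D + rrSum T + Finsupp.single v 1) ≤
        riemannRochSpace (D + rrSum T) := by
      obtain ⟨f₀, hf₀, hf₀'⟩ := SetLike.not_le_iff_exists.mp (hall v hvS)
      obtain ⟨hf₀0, hord⟩ := rr_ord_eq_of_mem_of_notMem hf₀ hf₀'
      intro hle
      have hDle : D + Finsupp.single v 1 ≤ D + rrSum T + Finsupp.single v 1 := by
        have := rrSum_nonneg T
        exact add_le_add (le_add_of_nonneg_right this) le_rfl
      have h1 := hle (rr_space_mono hDle hf₀)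
      have h2 := ((mem_riemannRochSpace_iff.mp h1) v).resolve_left hf₀0
      rw [Finsupp.add_apply, rrSum_apply_of_notMem hv, hord] at h2
      omega
    rw [rr_adele_onestep_of_ne _ v (hdeg v) hne, ih hTS]

/-- **Adding a general point to a special divisor**: if `dim H1(D) > 0` there is a place `v`
outside any given finite set with `L(D + v) = L(D)`. -/
theorem RRHyp.exists_place_drop (h : RRHyp K F) [Infinite K] (D : Divisor K F)
    (hi : 0 < Module.finrank K (H1 D)) (S : Finset (Place K F)) :
    ∃ v : Place K F, v ∉ S ∧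
      riemannRochSpace (D + Finsupp.single v 1) = riemannRochSpace D := by
  classical
  by_contra hcon
  have hall : ∀ v : Place K F, v ∉ S →
      ¬ riemannRochSpace (D + Finsupp.single v 1) ≤ riemannRochSpace D := by
    intro v hv hle
    exact hcon ⟨v, hv, le_antisymm hle (rr_space_mono (rr_le_add_single D v))⟩
  obtain ⟨c, hc⟩ := h.exists_degree_bound
  haveI := h.infinite_place
  set k : ℕ := (c - Divisor.degree D).toNat with hk
  have hk1 : c - Divisor.degree D ≤ (k : ℤ) := Int.self_le_toNat _
  have hinf : (↑S : Set (Place K F))ᶜ.Infinite := S.finite_toSet.infinite_compl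
  obtain ⟨T, hTsub, hTcard⟩ := hinf.exists_subset_card_eq k
  have hTS : Disjoint T S := by
    rw [Finset.disjoint_left]
    intro v hvT hvS
    exact hTsub hvT hvS
  have h1 := rr_sup_eq_of_forall_ne h.deg_one D S hall T hTS
  have hdegT : c ≤ Divisor.degree (D + rrSum T) := by
    rw [map_add, rr_degree_rrSum h.deg_one, hTcard]
    omega
  have h2 := hc _ hdegT
  have h3 := h.top_of_finrank_H1_eq_zero h2
  rw [h1] at h3
  rw [rr_finrank_H1_eq_zero_of_top h3] at hi
  exact lt_irrefl _ hi

/-- **Non-special divisors**: for `r ≤ dim H1(D)` there are `r` distinct places outside any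
given finite set whose sum can be added to `D` without enlarging `L(D)`. -/
theorem RRHyp.exists_nonspecial (h : RRHyp K F) [Infinite K] (D : Divisor K F)
    (S : Finset (Place K F)) :
    ∀ r : ℕ, r ≤ Module.finrank K (H1 D) →
      ∃ T : Finset (Place K F), T.card = r ∧ Disjoint T S ∧
        riemannRochSpace (D + rrSum T) = riemannRochSpace D ∧
        Module.finrank K (H1 (D + rrSum T)) + r = Module.finrank K (H1 D) := by
  classical
  intro r
  induction r with
  | zero =>
    exact fun _ => ⟨∅, rfl, Finset.disjoint_empty_left S, by rw [rrSum_empty, add_zero],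
      by rw [rrSum_empty, add_zero, add_zero]⟩
  | succ r ih =>
    intro hr
    obtain ⟨T, hTcard, hTS, hL, hH⟩ := ih (by omega)
    have hi : 0 < Module.finrank K (H1 (D + rrSum T)) := by omega
    obtain ⟨v, hv, hLv⟩ := h.exists_place_drop (D + rrSum T) hi (S ∪ T)
    have hvS : v ∉ S := fun hh => hv (Finset.mem_union_left T hh)
    have hvT : v ∉ T := fun hh => hv (Finset.mem_union_right S hh)
    have hins : D + rrSum (insert v T) = D + rrSum T + Finsupp.single v 1 := by
      rw [rrSum_insert hvT, add_assoc]
    refine ⟨insert v T, by rw [Finset.card_insert_of_notMem hvT, hTcard], ?_, ?_, ?_⟩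
    · rw [Finset.disjoint_insert_left]
      exact ⟨hvS, hTS⟩
    · rw [hins, hLv, hL]
    · have h1 := h.finrank_H1_eq (D + rrSum T + Finsupp.single v 1)
      have h2 := h.finrank_H1_eq (D + rrSum T)
      rw [hLv, rr_degree_add_single h.deg_one] at h1
      rw [hins]
      omega

/-- For a divisor of degree zero there is an effective divisor `B`, a sum of `g` distinct places
outside any given finite set, with `l(D + B) = 1`. -/
theorem RRHyp.exists_effective_of_degree_zero (h : RRHyp K F) [Infinite K] (D : Divisor K F)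
    (hD : Divisor.degree D = 0) (S : Finset (Place K F)) :
    ∃ T : Finset (Place K F), T.card = genusFF K F ∧ Disjoint T S ∧
      Module.finrank K (riemannRochSpace (D + rrSum T)) = 1 ∧
      Module.finrank K (H1 (D + rrSum T)) = 0 := by
  classical
  haveI := h.principal
  haveI := h.infinite_place
  obtain ⟨v₀⟩ := h.exists_place
  -- `l(D) ≤ 1`
  have hl1 : Module.finrank K (riemannRochSpace D) ≤ 1 := by
    have hneg : Divisor.degree (D + Finsupp.single v₀ (-1)) < 0 := by
      rw [rr_degree_add_single h.deg_one, hD]; omega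
    have hbot := rr_space_eq_bot_of_degree_neg hneg
    haveI : Module.Finite K (riemannRochSpace (D + Finsupp.single v₀ (-1))) := by
      rw [hbot]; infer_instance
    have h1 := (rr_finrank_onestep (D + Finsupp.single v₀ (-1)) v₀ (h.deg_one v₀)).2.2
    have h2 : D + Finsupp.single v₀ (-1) + Finsupp.single v₀ 1 = D := by
      rw [add_assoc, ← Finsupp.single_add]; simp
    rw [h2, hbot, finrank_bot] at h1
    exact h1
  have hH := h.finrank_H1_eq D
  rw [hD] at hH
  rcases Nat.eq_zero_or_pos (Module.finrank K (riemannRochSpace D)) with hl0 | hlpos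
  · -- `l(D) = 0`, `i(D) = g - 1`
    rw [hl0] at hH
    have hg : 1 ≤ genusFF K F := by
      have : (0 : ℤ) ≤ (Module.finrank K (H1 D) : ℤ) := Int.natCast_nonneg _
      omega
    obtain ⟨T, hTcard, hTS, hL, hHT⟩ := h.exists_nonspecial D S (genusFF K F - 1) (by omega)
    have hi0 : Module.finrank K (H1 (D + rrSum T)) = 0 := by omega
    obtain ⟨v, hv⟩ := Infinite.exists_notMem_finset (S ∪ T)
    have hvS : v ∉ S := fun hh => hv (Finset.mem_union_left T hh)
    have hvT : v ∉ T := fun hh => hv (Finset.mem_union_right S hh)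
    have htop := h.top_of_finrank_H1_eq_zero hi0
    have htop' := rr_top_of_le htop (rr_le_add_single (D + rrSum T) v)
    have hi0' := rr_finrank_H1_eq_zero_of_top htop'
    have hins : D + rrSum (insert v T) = D + rrSum T + Finsupp.single v 1 := by
      rw [rrSum_insert hvT, add_assoc]
    refine ⟨insert v T, by rw [Finset.card_insert_of_notMem hvT, hTcard]; omega, ?_, ?_, ?_⟩
    · rw [Finset.disjoint_insert_left]
      exact ⟨hvS, hTS⟩
    · have h1 := h.finrank_H1_eq (D + rrSum T + Finsupp.single v 1)
      rw [hi0', rr_degree_add_single h.deg_one, map_add, hD, rr_degree_rrSum h.deg_one,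
        hTcard] at h1
      have h3 : ((genusFF K F - 1 : ℕ) : ℤ) = (genusFF K F : ℤ) - 1 := by
        rw [Nat.cast_sub hg]; simp
      rw [h3] at h1
      rw [hins]
      have : (Module.finrank K (riemannRochSpace (D + rrSum T + Finsupp.single v 1)) : ℤ) = 1 := by
        push_cast at h1
        omega
      exact_mod_cast this
    · rw [hins]
      exact hi0'
  · -- `l(D) = 1`, `i(D) = g`
    have hl : Module.finrank K (riemannRochSpace D) = 1 := by omega
    rw [hl] at hH
    obtain ⟨T, hTcard, hTS, hL, hHT⟩ := h.exists_nonspecial D S (genusFF K F) (by omega)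
    refine ⟨T, hTcard, hTS, by rw [hL, hl], by omega⟩

end Fermat.Agent.H58

end
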