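/-
P-ES / ES-D glue (helper58): the `RiemannPackage` of `Fermat.Agent.H27.ESD.Interfaces` from
`RRHyp`, the characteristic-zero instance `RiemannBarStatement` (unconditional), and the
reduction of `RiemannTheoremStatement` (any characteristic) to the existence of principal
divisors and the easy half of the fundamental identity.
-/
import Fermat.Agent.H58.RR.NonSpecial
import Fermat.Agent.H58.RR.Modular
import Fermat.Agent.H58.Gen1a
import Fermat.Agent.H27.ESD.Interfaces1b

set_option autoImplicit false
set_option linter.style.haveILetI false

noncomputable section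

open AlgebraicCurve IntermediateField

namespace Fermat.Agent.H58

/-- `RRHyp` gives the Riemann package of ES-D, with `g = genusFF K F`. -/
theorem riemannPackage_of_rrHyp {K F : Type*} [Field K] [Field F] [Algebra K F] [Infinite K]
    (h : RRHyp K F) : Fermat.Agent.H27.ESD.RiemannPackage K F (genusFF K F) := by
  haveI := h.principal
  obtain ⟨v₀⟩ := h.exists_place
  refine ⟨h.deg_one, h.infinite_place, h.principal, h.finite_space,
    rr_finrank_zero h.deg_one v₀, h.riemann_inequality, ?_⟩
  obtain ⟨c, hc⟩ := h.exists_degree_bound
  refine ⟨c, fun D hD => ?_⟩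
  have h1 := h.finrank_H1_eq D
  rw [hc D hD] at h1
  push_cast at h1
  omega

/-- **ES-D-A2, final form**: Riemann package for `ℚ̄(X₀(N))` (unconditional). -/
theorem riemannBarStatement : Fermat.Agent.H27.ESD.RiemannBarStatement := by
  intro N _
  exact ⟨_, riemannPackage_of_rrHyp (rrHyp_modularFunctionFieldBar N)⟩

/-- Riemann's theorem in characteristic zero, in the ES-D shape. -/
theorem riemannTheorem_charZero (K F : Type) [Field K] [Field F] [Algebra K F] [IsAlgClosed K]
    [CharZero K] (x : F) (hx : Transcendental K x)
    (hfin : FiniteDimensional (IntermediateField.adjoin K {x}) F) :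
    ∃ g : ℕ, Fermat.Agent.H27.ESD.RiemannPackage K F g :=
  ⟨_, riemannPackage_of_rrHyp (rrHyp_charZero K F x hx hfin)⟩

/-- What remains for Riemann's theorem in arbitrary characteristic: principal divisors exist
(finite support, degree zero) and the pole divisor of `x` has degree at most `[F : K(x)]`. -/
def PrincipalInputStatement : Prop :=
  ∀ (K F : Type) [Field K] [Field F] [Algebra K F] [IsAlgClosed K] (x : F),
    Transcendental K x →
    FiniteDimensional (IntermediateField.adjoin K {x}) F →
    Algebra.IsSeparable (IntermediateField.adjoin K {x}) F →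
    HasPrincipalDivisors K F ∧
      ∃ B : Divisor K F, 0 ≤ B ∧ (∀ v : Place K F, -B v ≤ v.ord x) ∧
        Divisor.degree B ≤ (Module.finrank (IntermediateField.adjoin K {x}) F : ℤ) ∧
        0 < Divisor.degree B

/-- **ES-D-A1 reduced**: Riemann's theorem (any characteristic) from `PrincipalInputStatement`. -/
theorem riemannTheorem_of_principalInput (h : PrincipalInputStatement) :
    Fermat.Agent.H27.ESD.RiemannTheoremStatement := by
  intro K F _ _ _ _ x hx hfin hsep
  obtain ⟨hP, B, hB0, hBx, hBdeg, hBpos⟩ := h K F x hx hfin hsep
  haveI := hP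
  haveI := hfin
  have hdeg : ∀ v : Place K F, v.deg = 1 := fun v => place_deg_eq_one x hx v
  exact ⟨_, riemannPackage_of_rrHyp (rrHyp_of_finite hdeg x hx B hB0 hBx hBdeg hBpos)⟩

end Fermat.Agent.H58

end
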